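import Mathlib

/-!
# S41, block G-F : the group lemma

A group of automorphisms of a plane (char `≠ 2`) all of whose elements are killed by `(X-ε)(X-d)`, `ε = ±1`,
is reducible.
-/

set_option autoImplicit false

namespace Fermat.Agent.S41.G

section

variable {F : Type*} [Field F] {V : Type*} [AddCommGroup V] [Module F V]

local notation "tr" => LinearMap.trace F V
local notation "dt" => (LinearMap.det : (V →ₗ[F] V) →* F)
local notation "cc" => (LinearEquiv.automorphismGroup.toLinearMapMonoidHom : (V ≃ₗ[F] V) →* (V →ₗ[F] V))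

theorem GroupLemma_mat_ch (A : Matrix (Fin 2) (Fin 2) F) :
    A * A = A.trace • A - A.det • (1 : Matrix (Fin 2) (Fin 2) F) := by
  ext i j
  fin_cases i <;> fin_cases j <;>
    simp [Matrix.mul_apply, Fin.sum_univ_two, Matrix.trace_fin_two, Matrix.det_fin_two] <;> ring

theorem GroupLemma_mat_pol (A B : Matrix (Fin 2) (Fin 2) F) :
    A * B + B * A = B.trace • A + A.trace • B +
      ((A * B).trace - A.trace * B.trace) • (1 : Matrix (Fin 2) (Fin 2) F) := by
  ext i j
  fin_cases i <;> fin_cases j <;>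
    simp [Matrix.mul_apply, Fin.sum_univ_two, Matrix.trace_fin_two] <;> ring

/-- Cayley–Hamilton in dimension 2. -/
theorem GroupLemma_ch (hV : Module.finrank F V = 2) (f : V →ₗ[F] V) :
    f * f = tr f • f - dt f • (1 : V →ₗ[F] V) := by
  have : Module.Finite F V := Module.finite_of_finrank_eq_succ hV
  let b := Module.finBasisOfFinrankEq F V hV
  apply (LinearMap.toMatrixAlgEquiv b).injective
  rw [map_mul, map_sub, map_smul, map_smul, map_one, LinearMap.trace_eq_matrix_trace F b f,
    ← LinearMap.det_toMatrix b f]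
  exact GroupLemma_mat_ch _

/-- polarised Cayley–Hamilton in dimension 2. -/
theorem GroupLemma_pol (hV : Module.finrank F V = 2) (f f' : V →ₗ[F] V) :
    f * f' + f' * f = tr f' • f + tr f • f' + (tr (f * f') - tr f * tr f') • (1 : V →ₗ[F] V) := by
  have : Module.Finite F V := Module.finite_of_finrank_eq_succ hV
  let b := Module.finBasisOfFinrankEq F V hV
  apply (LinearMap.toMatrixAlgEquiv b).injective
  rw [map_add, map_add, map_add, map_mul, map_mul, map_smul, map_smul, map_smul, map_one,
    LinearMap.trace_eq_matrix_trace F b f, LinearMap.trace_eq_matrix_trace F b f',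
    LinearMap.trace_eq_matrix_trace F b (f * f')]
  have h : LinearMap.toMatrix b b (f * f') = LinearMap.toMatrix b b f * LinearMap.toMatrix b b f' :=
    map_mul (LinearMap.toMatrixAlgEquiv b) f f'
  rw [h]
  exact GroupLemma_mat_pol _ _

theorem GroupLemma_tr_one (hV : Module.finrank F V = 2) : tr (1 : V →ₗ[F] V) = 2 := by
  have : Module.Finite F V := Module.finite_of_finrank_eq_succ hV
  rw [LinearMap.trace_one, hV]
  norm_num

theorem GroupLemma_dt_smul_one (hV : Module.finrank F V = 2) (c : F) :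
    dt (c • (1 : V →ₗ[F] V)) = c ^ 2 := by
  rw [LinearMap.det_smul, hV, map_one, mul_one]

/-- the hypothesis on one element. -/
def GroupLemmaHyp (f : V →ₗ[F] V) : Prop :=
  ∃ ε d : F, ε ^ 2 = 1 ∧ f * f - (ε + d) • f + (ε * d) • (1 : V →ₗ[F] V) = 0

/-- (F3) -/
theorem GroupLemma_f3 (hV : Module.finrank F V = 2) (f : V →ₗ[F] V) (hf : GroupLemmaHyp f) :
    (∃ c : F, f = c • (1 : V →ₗ[F] V)) ∨ ∃ ε : F, ε ^ 2 = 1 ∧ ε * tr f = 1 + dt f := by
  have : Nontrivial V := Module.nontrivial_of_finrank_eq_succ hV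
  obtain ⟨ε, d, hε, h⟩ := hf
  rw [GroupLemma_ch hV f] at h
  have h1 : (tr f - (ε + d)) • f = (dt f - ε * d) • (1 : V →ₗ[F] V) := by
    rw [sub_smul, sub_smul]
    rw [← sub_eq_zero]
    rw [← h]
    abel
  by_cases hs : tr f = ε + d
  · right
    rw [hs, sub_self, zero_smul] at h1
    have h2 : dt f - ε * d = 0 := by
      rcases smul_eq_zero.mp h1.symm with h2 | h2
      · exact h2
      · exact absurd h2 one_ne_zero
    refine ⟨ε, hε, ?_⟩
    rw [hs]
    linear_combination hε - h2
  · left
    refine ⟨(tr f - (ε + d))⁻¹ * (dt f - ε * d), ?_⟩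
    rw [mul_smul, ← h1, smul_smul, inv_mul_cancel₀ (sub_ne_zero.mpr hs), one_smul]

/-- (F4) -/
theorem GroupLemma_f4 (hV : Module.finrank F V = 2) (f : V →ₗ[F] V) (hf : GroupLemmaHyp f)
    (hd : dt f = 1) : ∃ ε : F, ε ^ 2 = 1 ∧ tr f = 2 * ε := by
  rcases GroupLemma_f3 hV f hf with ⟨c, rfl⟩ | ⟨ε, hε, h⟩
  · rw [GroupLemma_dt_smul_one hV] at hd
    exact ⟨c, hd, by rw [map_smul, GroupLemma_tr_one hV, smul_eq_mul, mul_comm]⟩
  · refine ⟨ε, hε, ?_⟩
    rw [hd] at h
    linear_combination ε * h - (tr f) * hε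

/-- (F5) -/
theorem GroupLemma_f5 (h2 : (2 : F) ≠ 0) (hV : Module.finrank F V = 2) (f : V →ₗ[F] V)
    (hf : GroupLemmaHyp f) (hd : dt f ≠ 0) (ht : tr f = 0) : dt f = -1 := by
  rcases GroupLemma_f3 hV f hf with ⟨c, rfl⟩ | ⟨ε, hε, h⟩
  · rw [map_smul, GroupLemma_tr_one hV, smul_eq_mul] at ht
    have hc : c = 0 := (mul_eq_zero.mp ht).resolve_right h2
    rw [GroupLemma_dt_smul_one hV, hc] at hd
    exact absurd (by norm_num) hd
  · rw [ht, mul_zero] at h
    linear_combination -h

/-- **Case I**, the key computation: `u = ε + n`, `n² = 0`, `tr n = 0`; `g h = h g = 1`;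
`tr (u g u h)² = 4 = tr (u u g u h)²`.  Then `tr (n g) = 0`. -/
theorem GroupLemma_caseI_tr (h2 : (2 : F) ≠ 0) (hV : Module.finrank F V = 2) (ε : F) (hε : ε ^ 2 = 1)
    (n g h : V →ₗ[F] V) (hn : n * n = 0) (htn : tr n = 0) (hgh : g * h = 1) (hhg : h * g = 1)
    (h1 : tr ((ε • 1 + n) * (g * (ε • 1 + n) * h)) ^ 2 = 4)
    (h3 : tr ((ε • 1 + n) * (ε • 1 + n) * (g * (ε • 1 + n) * h)) ^ 2 = 4) :
    tr (n * g) = 0 := by
  have htn' : tr (g * n * h) = 0 := by
    rw [LinearMap.trace_mul_comm, ← mul_assoc, hhg, one_mul, htn]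
  have hu' : g * (ε • 1 + n) * h = ε • 1 + g * n * h := by
    rw [mul_add, add_mul, mul_smul_comm, smul_mul_assoc, mul_one, hgh]
  have hngn : n * g * n = tr (n * g) • n := by
    have hp := GroupLemma_pol hV n g
    rw [htn, zero_smul, add_zero, zero_mul, sub_zero] at hp
    have hp' := congrArg (fun x => n * x) hp
    simp only [mul_add, mul_smul_comm, mul_one, hn, smul_zero, zero_add] at hp'
    rw [← mul_assoc, hn, zero_mul, zero_add, ← mul_assoc] at hp'
    exact hp'
  have hh : dt g • h = tr g • (1 : V →ₗ[F] V) - g := by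
    have hc := congrArg (fun x => x * h) (GroupLemma_ch hV g)
    simp only [sub_mul, smul_mul_assoc, one_mul, mul_assoc, hgh, mul_one] at hc
    rw [eq_sub_iff_add_eq, add_comm, ← eq_sub_iff_add_eq]
    exact hc
  have hnh : dt g * tr (n * h) = - tr (n * g) := by
    have := congrArg (fun x => tr (n * x)) hh
    simp only [mul_smul_comm, mul_sub, mul_one, map_smul, map_sub, htn, smul_eq_mul, mul_zero,
      zero_sub] at this
    exact this
  have ht : tr (n * (g * n * h)) = tr (n * g) * tr (n * h) := by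
    rw [← mul_assoc, ← mul_assoc, hngn, smul_mul_assoc, map_smul, smul_eq_mul]
  have hdg : dt g ≠ 0 := by
    intro h0
    have : dt (g * h) = 1 := by rw [hgh, map_one]
    rw [map_mul, h0, zero_mul] at this
    exact zero_ne_one this
  set t := tr (n * (g * n * h)) with htdef
  have e1 : tr ((ε • 1 + n) * (g * (ε • 1 + n) * h)) = 2 + t := by
    rw [hu']
    simp only [mul_add, add_mul, smul_mul_assoc, mul_smul_comm, one_mul, mul_one, map_add, map_smul,
      smul_eq_mul, htn, htn', GroupLemma_tr_one hV, mul_zero, add_zero]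
    rw [← htdef]
    linear_combination 2 * hε
  have e3 : tr ((ε • 1 + n) * (ε • 1 + n) * (g * (ε • 1 + n) * h)) = 2 * ε * (1 + t) := by
    rw [hu']
    have huu : (ε • (1 : V →ₗ[F] V) + n) * (ε • 1 + n) = (1 : V →ₗ[F] V) + (2 * ε) • n := by
      simp only [mul_add, add_mul, smul_mul_assoc, mul_smul_comm, one_mul, mul_one, hn, add_zero]
      rw [smul_add, smul_smul, ← pow_two, hε, one_smul, two_mul, add_smul, add_assoc]
    rw [huu]
    simp only [mul_add, add_mul, smul_mul_assoc, mul_smul_comm, one_mul, mul_one, map_add, map_smul,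
      smul_eq_mul, htn, htn', GroupLemma_tr_one hV, mul_zero, add_zero]
    rw [← htdef]
    ring
  rw [e1] at h1
  rw [e3] at h3
  have h4 : (4 : F) ≠ 0 := by
    have : (4 : F) = 2 * 2 := by norm_num
    rw [this]
    exact mul_ne_zero h2 h2
  have h3' : (1 + t) ^ 2 = 1 := by
    have : 4 * ((1 + t) ^ 2 - 1) = 0 := by linear_combination h3 - 4 * (1 + t) ^ 2 * hε
    have := (mul_eq_zero.mp this).resolve_left h4
    linear_combination this
  have ht0 : t = 0 := by
    have : 2 * t = 0 := by linear_combination h1 - h3'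
    exact (mul_eq_zero.mp this).resolve_left h2
  rw [ht] at ht0
  have : tr (n * g) ^ 2 = 0 := by
    linear_combination (-(dt g)) * ht0 + tr (n * g) * hnh
  exact pow_eq_zero_iff (two_ne_zero) |>.mp this

theorem GroupLemma_eq_zero_of_eq_neg (h2 : (2 : F) ≠ 0) {x : F} (h : x = -x) : x = 0 := by
  have : 2 * x = 0 := by linear_combination h
  exact (mul_eq_zero.mp this).resolve_left h2

end

theorem group_lemma {F : Type*} [Field F] (h2 : (2 : F) ≠ 0) {V : Type*} [AddCommGroup V]
    [Module F V] (hV : Module.finrank F V = 2) (S : Subgroup (V ≃ₗ[F] V))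
    (hS : ∀ g ∈ S, ∃ ε d : F, ε ^ 2 = 1 ∧ ∀ v : V, g (g v) - (ε + d) • g v + (ε * d) • v = 0) :
    ∃ N : Submodule F V, N ≠ ⊥ ∧ N ≠ ⊤ ∧ ∀ g ∈ S, ∀ v ∈ N, g v ∈ N := by
  have hNT : Nontrivial V := Module.nontrivial_of_finrank_eq_succ hV
  let cc : (V ≃ₗ[F] V) →* (V →ₗ[F] V) := LinearEquiv.automorphismGroup.toLinearMapMonoidHom
  have hcc : ∀ (g : V ≃ₗ[F] V) (v : V), cc g v = g v := fun _ _ => rfl
  have hH : ∀ g ∈ S, GroupLemmaHyp (cc g) := by
    intro g hg
    obtain ⟨ε, d, hε, h⟩ := hS g hg
    exact ⟨ε, d, hε, LinearMap.ext h⟩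
  have hinv : ∀ g : V ≃ₗ[F] V, cc g * cc g⁻¹ = 1 ∧ cc g⁻¹ * cc g = 1 := by
    intro g
    constructor <;> rw [← map_mul] <;> simp
  have hdt : ∀ g : V ≃ₗ[F] V, LinearMap.det (cc g) * LinearMap.det (cc g⁻¹) = 1 := by
    intro g
    rw [← map_mul, (hinv g).1, map_one]
  have hdt0 : ∀ g : V ≃ₗ[F] V, LinearMap.det (cc g) ≠ 0 := fun g h0 => by
    have := hdt g
    rw [h0, zero_mul] at this
    exact zero_ne_one this
  have hsq : ∀ k ∈ S, LinearMap.det (cc k) = 1 → LinearMap.trace F V (cc k) ^ 2 = 4 := by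
    intro k hk hd
    obtain ⟨ε, hε, h⟩ := GroupLemma_f4 hV _ (hH k hk) hd
    rw [h]
    linear_combination 4 * hε
  by_cases hI : ∃ u ∈ S, LinearMap.det (cc u) = 1 ∧ ¬ ∃ c : F, cc u = c • (1 : V →ₗ[F] V)
  · -- Case I
    obtain ⟨u, hu, hdu, hns⟩ := hI
    obtain ⟨ε, hε, htu⟩ := GroupLemma_f4 hV _ (hH u hu) hdu
    obtain ⟨n, hn⟩ : ∃ n : V →ₗ[F] V, n = cc u - ε • (1 : V →ₗ[F] V) := ⟨_, rfl⟩
    have hun : cc u = ε • (1 : V →ₗ[F] V) + n := by rw [hn]; abel
    have hnn : n * n = 0 := by
      have hch := GroupLemma_ch hV (cc u)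
      rw [htu, hdu, one_smul] at hch
      rw [hn, sub_mul, mul_sub, mul_sub, hch]
      simp only [smul_mul_assoc, mul_smul_comm, one_mul, mul_one, smul_smul]
      rw [← pow_two, hε, one_smul, two_mul, add_smul]
      abel
    have htn : LinearMap.trace F V n = 0 := by
      rw [hn, map_sub, map_smul, GroupLemma_tr_one hV, htu, smul_eq_mul]
      ring
    have hn0 : n ≠ 0 := fun h0 => hns ⟨ε, by rw [hun, h0, add_zero]⟩
    refine ⟨LinearMap.ker n, ?_, ?_, ?_⟩
    · intro hbot
      apply hn0
      ext w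
      have hw : n w ∈ LinearMap.ker n := by
        rw [LinearMap.mem_ker]
        exact LinearMap.congr_fun hnn w
      rw [hbot, Submodule.mem_bot] at hw
      simpa using hw
    · intro htop
      exact hn0 (LinearMap.ker_eq_top.mp htop)
    · intro g hg v hv
      have hk1 : u * (g * u * g⁻¹) ∈ S := S.mul_mem hu (S.mul_mem (S.mul_mem hg hu) (S.inv_mem hg))
      have hk2 : u * u * (g * u * g⁻¹) ∈ S :=
        S.mul_mem (S.mul_mem hu hu) (S.mul_mem (S.mul_mem hg hu) (S.inv_mem hg))
      have hd1 : LinearMap.det (cc (u * (g * u * g⁻¹))) = 1 := by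
        simp only [map_mul, hdu, mul_one, hdt]
      have hd2 : LinearMap.det (cc (u * u * (g * u * g⁻¹))) = 1 := by
        simp only [map_mul, hdu, mul_one, hdt]
      have h1 := hsq _ hk1 hd1
      have h3 := hsq _ hk2 hd2
      simp only [map_mul, hun] at h1 h3
      have key := GroupLemma_caseI_tr h2 hV ε hε n (cc g) (cc g⁻¹) hnn htn (hinv g).1 (hinv g).2 h1 h3
      have hp := GroupLemma_pol hV n (cc g)
      rw [htn, key, zero_smul, add_zero, zero_mul, sub_zero, zero_smul, add_zero] at hp
      have hpv := LinearMap.congr_fun hp v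
      rw [LinearMap.mem_ker] at hv ⊢
      simp only [LinearMap.add_apply, Module.End.mul_apply, LinearMap.smul_apply, hv, map_zero, add_zero,
        smul_zero] at hpv
      exact hpv
  · -- Case II
    push Not at hI
    have hcomm : ∀ g ∈ S, ∀ h ∈ S, cc g * cc h = cc h * cc g := by
      intro g hg h hh
      have hk : g * h * g⁻¹ * h⁻¹ ∈ S :=
        S.mul_mem (S.mul_mem (S.mul_mem hg hh) (S.inv_mem hg)) (S.inv_mem hh)
      have hdk : LinearMap.det (cc (g * h * g⁻¹ * h⁻¹)) = 1 := by
        simp only [map_mul]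
        linear_combination (LinearMap.det (cc h) * LinearMap.det (cc h⁻¹)) * hdt g + hdt h
      obtain ⟨c, hc⟩ := hI _ hk hdk
      have hc2 : c ^ 2 = 1 := by rw [← GroupLemma_dt_smul_one hV c, ← hc, hdk]
      have hrel : cc g * cc h = c • (cc h * cc g) := by
        have : cc (g * h * g⁻¹ * h⁻¹) * (cc h * cc g) = cc g * cc h := by
          rw [← map_mul, ← map_mul, ← map_mul]
          congr 1
          group
        rw [← this, hc, smul_mul_assoc, one_mul]
      have hc' : c = 1 ∨ c = -1 := by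
        have : (c - 1) * (c + 1) = 0 := by linear_combination hc2
        rcases mul_eq_zero.mp this with h | h
        · left; linear_combination h
        · right; linear_combination h
      rcases hc' with rfl | rfl
      · rw [hrel, one_smul]
      · exfalso
        rw [neg_one_smul] at hrel
        have t1 : LinearMap.trace F V (cc g * cc h) = 0 := by
          apply GroupLemma_eq_zero_of_eq_neg h2
          conv_lhs => rw [hrel]
          rw [map_neg, LinearMap.trace_mul_comm]
        have t2 : LinearMap.trace F V (cc h) = 0 := by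
          apply GroupLemma_eq_zero_of_eq_neg h2
          have e : cc h = cc g⁻¹ * (cc g * cc h) := by rw [← mul_assoc, (hinv g).2, one_mul]
          conv_lhs => rw [e, hrel]
          rw [mul_neg, map_neg, LinearMap.trace_mul_comm, mul_assoc, (hinv g).1, mul_one]
        have t3 : LinearMap.trace F V (cc g) = 0 := by
          apply GroupLemma_eq_zero_of_eq_neg h2
          have e : cc g = (cc g * cc h) * cc h⁻¹ := by rw [mul_assoc, (hinv h).1, mul_one]
          conv_lhs => rw [e, hrel]
          rw [neg_mul, map_neg, LinearMap.trace_mul_comm, ← mul_assoc, (hinv h).2, one_mul]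
        have d1 := GroupLemma_f5 h2 hV _ (hH g hg) (hdt0 g) t3
        have d2 := GroupLemma_f5 h2 hV _ (hH h hh) (hdt0 h) t2
        have d3 := GroupLemma_f5 h2 hV _ (hH (g * h) (S.mul_mem hg hh)) (hdt0 _) (by rw [map_mul]; exact t1)
        rw [map_mul, map_mul, d1, d2] at d3
        apply h2
        linear_combination d3
    by_cases hsc : ∀ g ∈ S, ∃ c : F, cc g = c • (1 : V →ₗ[F] V)
    · obtain ⟨v, hv⟩ := exists_ne (0 : V)
      refine ⟨Submodule.span F {v}, ?_, ?_, ?_⟩
      · rw [Ne, Submodule.span_singleton_eq_bot]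
        exact hv
      · intro htop
        have h1 := finrank_span_singleton (K := F) hv
        rw [htop, finrank_top, hV] at h1
        omega
      · intro g hg w hw
        obtain ⟨c, hc⟩ := hsc g hg
        have : g w = c • w := LinearMap.congr_fun hc w
        rw [this]
        exact Submodule.smul_mem _ _ hw
    · push Not at hsc
      obtain ⟨g, hg, hns⟩ := hsc
      obtain ⟨ε, d, -, h⟩ := hS g hg
      refine ⟨LinearMap.ker (cc g - ε • (1 : V →ₗ[F] V)), ?_, ?_, ?_⟩
      · intro hbot
        apply hns d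
        ext v
        have hv : g v - d • v ∈ LinearMap.ker (cc g - ε • (1 : V →ₗ[F] V)) := by
          rw [LinearMap.mem_ker]
          simp only [LinearMap.sub_apply, LinearMap.smul_apply, Module.End.one_apply, hcc, map_sub,
            map_smul]
          rw [← h v, add_smul, mul_smul, smul_sub, smul_comm ε d v]
          abel
        rw [hbot, Submodule.mem_bot, sub_eq_zero] at hv
        simpa [hcc] using hv
      · intro htop
        apply hns ε
        have := LinearMap.ker_eq_top.mp htop
        exact sub_eq_zero.mp this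
      · intro k hk v hv
        rw [LinearMap.mem_ker] at hv ⊢
        simp only [LinearMap.sub_apply, LinearMap.smul_apply, Module.End.one_apply, hcc] at hv ⊢
        have hc := LinearMap.congr_fun (hcomm g hg k hk) v
        simp only [Module.End.mul_apply, hcc] at hc
        rw [hc, ← map_smul, ← map_sub, hv, map_zero]

end Fermat.Agent.S41.G
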