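import Fermat.Agent.S13.Tors
import Fermat.Prelude.Def_FLTPrelim_GaloisRep

/-!
# S41 / G : `#E[p] = p ^ 2` for an elliptic curve over an algebraically closed field, `p` odd,
`p ≠ 0` in the field.

On top of the `x`-only ladder of S13 (`ladder_spec`, `ladder_top`, `card_torsion_le`).
`F = ladF W n` is monic of degree `n ^ 2`, `G = ladG W n` has smaller degree, `F`, `G` have no
common root.  The Wronskian `F' G - F G'` is nonzero (`F ∣ F'` would follow), so for all but finitely
many `x₀` the polynomial `F - x₀ G` has `n ^ 2` distinct roots.  Each root `x` is the `x`-coordinate of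
a point `Q` with `n • Q = P₀` (`x (P₀) = x₀`).  So the fibre of `[n]` over `P₀`, which is a coset of
`E[n]`, has at least `n ^ 2` elements.
-/

set_option autoImplicit false
set_option linter.unusedSectionVars false

namespace Fermat.Agent.S41.G

open Polynomial WeierstrassCurve WeierstrassCurve.Affine Fermat.Agent.S13

section Poly

variable {K : Type*} [Field K] [IsAlgClosed K]

/-- the Wronskian of two coprime polynomials is nonzero if `F' ≠ 0`. -/
theorem torsCard_wronskian_ne_zero {F G : K[X]} (hFG : IsCoprime F G) (hF' : derivative F ≠ 0) :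
    derivative F * G - F * derivative G ≠ 0 := by
  intro h
  have h1 : F ∣ derivative F * G := ⟨derivative G, sub_eq_zero.1 h⟩
  have h2 : F ∣ derivative F := hFG.dvd_of_dvd_mul_right h1
  have hF0 : F ≠ 0 := by
    rintro rfl
    exact hF' derivative_zero
  exact hF' (eq_zero_of_dvd_of_degree_lt h2 (degree_derivative_lt hF0))

/-- for all but finitely many `x₀`, `F - x₀ G` is separable. -/
theorem torsCard_exists_separable {F G : K[X]} (hFG : IsCoprime F G) (hF' : derivative F ≠ 0) :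
    ∃ x₀ : K, (F - C x₀ * G).Separable := by
  classical
  set Wr := derivative F * G - F * derivative G with hWr
  have hWr0 : Wr ≠ 0 := torsCard_wronskian_ne_zero hFG hF'
  have hnc : ∀ a : K, F.eval a ≠ 0 ∨ G.eval a ≠ 0 := by
    have := (isCoprime_iff_aeval_ne_zero_of_isAlgClosed K K F G).1 hFG
    simpa only [coe_aeval_eq_eval] using this
  let B : Finset K := Wr.roots.toFinset.image fun x₁ => F.eval x₁ / G.eval x₁
  obtain ⟨x₀, hx₀⟩ := Infinite.exists_notMem_finset B
  refine ⟨x₀, ?_⟩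
  rw [separable_def, isCoprime_iff_aeval_ne_zero_of_isAlgClosed K K]
  intro a
  by_contra hcon
  rw [not_or, not_not, not_not] at hcon
  obtain ⟨h1, h2⟩ := hcon
  simp only [coe_aeval_eq_eval, derivative_sub, derivative_mul, derivative_C, zero_mul, zero_add,
    eval_sub, eval_mul, eval_C] at h1 h2
  have hG : G.eval a ≠ 0 := by
    intro hG
    rw [hG, mul_zero, sub_zero] at h1
    exact (hnc a).elim (fun h => h h1) (fun h => h hG)
  apply hx₀
  rw [Finset.mem_image]
  refine ⟨a, ?_, ?_⟩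
  · rw [Multiset.mem_toFinset, mem_roots hWr0, IsRoot.def, hWr]
    simp only [eval_sub, eval_mul]
    linear_combination (G.eval a) * h2 - (derivative G).eval a * h1
  · rw [div_eq_iff hG]
    linear_combination h1

/-- a monic perturbation: `F - x₀ G` has degree `d`. -/
theorem torsCard_natDegree_sub {F G : K[X]} {d : ℕ} (hF : F.natDegree = d) (hG : G.natDegree < d)
    (x₀ : K) : (F - C x₀ * G).natDegree = d := by
  rw [← hF]
  apply natDegree_sub_eq_left_of_natDegree_lt
  rw [hF]
  exact lt_of_le_of_lt (natDegree_C_mul_le _ _) hG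

theorem torsCard_card_roots {H : K[X]} (hs : H.Separable) :
    ∀ [DecidableEq K], H.roots.toFinset.card = H.natDegree := by
  intro _
  rw [Multiset.toFinset_card_of_nodup (nodup_roots hs)]
  exact splits_iff_card_roots.1 (IsAlgClosed.splits H)

end Poly

section Curve

variable {K : Type*} [Field K] [IsAlgClosed K] [DecidableEq K] (W : WeierstrassCurve K)

/-- every `x` is the `x`-coordinate of a point. -/
theorem torsCard_exists_point (hΔ : W.Δ ≠ 0) (x : K) : ∃ y : K, W.toAffine.Nonsingular x y := by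
  obtain ⟨y₀, hy₀⟩ := IsAlgClosed.exists_root (yQuad W x) (by
    rw [degree_eq_natDegree (yQuad_ne_zero W x), yQuad_natDegree]
    norm_num)
  exact ⟨y₀, (equation_iff_nonsingular_of_Δ_ne_zero hΔ).mp ((yQuad_eval_eq_zero_iff W x y₀).mp hy₀)⟩

theorem torsCard_isCoprime (hΔ : W.Δ ≠ 0) (n : ℕ) : IsCoprime (ladF W n) (ladG W n) := by
  rw [isCoprime_iff_aeval_ne_zero_of_isAlgClosed K K]
  intro x
  obtain ⟨y, h⟩ := torsCard_exists_point W hΔ x
  obtain ⟨c, hc, hf, hg⟩ := ladder_spec W h n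
  simp only [coe_aeval_eq_eval]
  by_contra hcon
  rw [not_or, not_not, not_not] at hcon
  rw [hcon.1] at hf
  rw [hcon.2] at hg
  have h0 : (n • (Point.some x y h : W.toAffine.Point)).xRep 0 = 0 :=
    (mul_eq_zero.1 hf.symm).resolve_left hc
  have h1 : (n • (Point.some x y h : W.toAffine.Point)).xRep 1 = 0 :=
    (mul_eq_zero.1 hg.symm).resolve_left hc
  apply Point.xRep_ne_zero (n • (Point.some x y h : W.toAffine.Point))
  funext i
  fin_cases i
  · exact h0
  · exact h1

theorem torsCard_natDegree_ladF (n : ℕ) (hn : 1 ≤ n) : (ladF W n).natDegree = n ^ 2 := by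
  obtain ⟨hf, -⟩ := ladder_top W n hn
  refine le_antisymm hf.1 (le_natDegree_of_ne_zero ?_)
  rw [hf.2]
  exact one_ne_zero

theorem torsCard_natDegree_ladG_lt (n : ℕ) (hn : 1 ≤ n) : (ladG W n).natDegree < n ^ 2 := by
  obtain ⟨-, hg⟩ := ladder_top W n hn
  have : 1 ≤ n ^ 2 := Nat.one_le_pow _ _ hn
  have := hg.1
  omega

theorem torsCard_derivative_ladF_ne_zero (n : ℕ) (hn : 1 ≤ n) (hnK : (n : K) ≠ 0) :
    derivative (ladF W n) ≠ 0 := by
  obtain ⟨hf, -⟩ := ladder_top W n hn
  intro h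
  have h1 : (derivative (ladF W n)).coeff (n ^ 2 - 1) = 0 := by rw [h, coeff_zero]
  have h2 : 1 ≤ n ^ 2 := Nat.one_le_pow _ _ hn
  rw [coeff_derivative, Nat.sub_add_cancel h2, hf.2, one_mul] at h1
  have h3 : ((n ^ 2 - 1 : ℕ) : K) + 1 = (n : K) ^ 2 := by
    have : ((n ^ 2 - 1 + 1 : ℕ) : K) = ((n ^ 2 : ℕ) : K) := by rw [Nat.sub_add_cancel h2]
    push_cast at this ⊢
    exact this
  rw [h3] at h1
  exact hnK (pow_eq_zero_iff (two_ne_zero)|>.1 h1)

/-- a root `x` of `F - x₀ G` is the `x`-coordinate of a point `Q` with `n • Q = P₀`. -/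
theorem torsCard_exists_preimage (hΔ : W.Δ ≠ 0) (n : ℕ) {x₀ y₀ : K}
    (h₀ : W.toAffine.Nonsingular x₀ y₀) {x : K}
    (hx : (ladF W n - C x₀ * ladG W n).eval x = 0) :
    ∃ Q : W.toAffine.Point, n • Q = Point.some x₀ y₀ h₀ ∧ Q.xRep = ![x, 1] := by
  obtain ⟨y, h⟩ := torsCard_exists_point W hΔ x
  obtain ⟨c, hc, hf, hg⟩ := ladder_spec W h n
  simp only [eval_sub, eval_mul, eval_C] at hx
  set Q : W.toAffine.Point := Point.some x y h with hQ
  have hrep : (n • Q).xRep = (Point.some x₀ y₀ h₀ : W.toAffine.Point).xRep := by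
    rcases hP : n • Q with _ | ⟨x', y', h'⟩
    · exfalso
      rw [hP] at hf hg
      have e0 : (Point.zero : W.toAffine.Point).xRep = ![1, 0] := rfl
      rw [e0] at hf hg
      simp only [Matrix.cons_val_zero, Matrix.cons_val_one, mul_one, mul_zero] at hf hg
      rw [hf, hg, mul_zero, sub_zero] at hx
      exact hc hx
    · rw [hP] at hf hg
      rw [Point.xRep_some] at hf hg
      simp only [Matrix.cons_val_zero, Matrix.cons_val_one, mul_one] at hf hg
      rw [hf, hg] at hx
      have : x' = x₀ := by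
        have h3 : c * (x' - x₀) = 0 := by linear_combination hx
        exact sub_eq_zero.1 ((mul_eq_zero.1 h3).resolve_left hc)
      rw [Point.xRep_some, Point.xRep_some, this]
  rcases Point.eq_or_eq_neg_of_xRep_eq_xRep hrep with h1 | h1
  · exact ⟨Q, h1, by rw [hQ, Point.xRep_some]⟩
  · refine ⟨-Q, by rw [smul_neg, h1, neg_neg], by rw [Point.xRep_neg, hQ, Point.xRep_some]⟩

/-- the lower bound. -/
theorem torsCard_le_card (hΔ : W.Δ ≠ 0) (n : ℕ) (hn : 1 ≤ n) (hnK : (n : K) ≠ 0)
    [Finite {P : W.toAffine.Point // n • P = 0}] :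
    n ^ 2 ≤ Nat.card {P : W.toAffine.Point // n • P = 0} := by
  obtain ⟨x₀, hsep⟩ := torsCard_exists_separable (torsCard_isCoprime W hΔ n)
    (torsCard_derivative_ladF_ne_zero W n hn hnK)
  obtain ⟨y₀, h₀⟩ := torsCard_exists_point W hΔ x₀
  set H := ladF W n - C x₀ * ladG W n with hH
  have hH0 : H ≠ 0 := hsep.ne_zero
  have hcard : H.roots.toFinset.card = n ^ 2 := by
    rw [torsCard_card_roots hsep]
    exact torsCard_natDegree_sub (torsCard_natDegree_ladF W n hn)
      (torsCard_natDegree_ladG_lt W n hn) x₀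
  have hroot : ∀ x : H.roots.toFinset, H.eval (x : K) = 0 := fun x => by
    have := x.2
    rw [Multiset.mem_toFinset, mem_roots hH0] at this
    exact this
  choose Q hQ hQx using fun x : H.roots.toFinset =>
    torsCard_exists_preimage W hΔ n h₀ (hroot x)
  have hne : Nonempty H.roots.toFinset := by
    have : 0 < H.roots.toFinset.card := by
      rw [hcard]; exact Nat.pow_pos hn
    obtain ⟨x, hx⟩ := Finset.card_pos.1 this
    exact ⟨⟨x, hx⟩⟩
  obtain ⟨xs⟩ := hne
  let f : H.roots.toFinset → {P : W.toAffine.Point // n • P = 0} := fun x =>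
    ⟨Q x - Q xs, by rw [smul_sub, hQ, hQ, sub_self]⟩
  have hf : Function.Injective f := by
    intro x x' hxx
    have h1 : Q x - Q xs = Q x' - Q xs := congrArg Subtype.val hxx
    have h2 : Q x = Q x' := sub_left_injective h1
    have h3 := hQx x
    rw [h2, hQx x'] at h3
    have h4 := congrFun h3 0
    simp only [Matrix.cons_val_zero] at h4
    exact Subtype.ext h4.symm
  have := Nat.card_le_card_of_injective f hf
  rwa [Nat.card_eq_fintype_card, Fintype.card_coe, hcard] at this

/-- **`#E[2m+1] = (2m+1)^2`.** -/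
theorem card_torsion_eq (hΔ : W.Δ ≠ 0) (m : ℕ) (hm : 1 ≤ m) (hp : ((2 * m + 1 : ℕ) : K) ≠ 0) :
    Nat.card {P : W.toAffine.Point // (2 * m + 1) • P = 0} = (2 * m + 1) ^ 2 := by
  have := finite_torsion W m hm hp
  exact le_antisymm (card_torsion_le W m hm hp) (torsCard_le_card W hΔ (2 * m + 1) (by omega) hp)

/-- the same for `Submodule.torsionBy`. -/
theorem card_torsionBy_eq (hΔ : W.Δ ≠ 0) {p : ℕ} (hp3 : 3 ≤ p) (hodd : Odd p) (hp : (p : K) ≠ 0) :
    Nat.card (Submodule.torsionBy ℤ W.toAffine.Point (p : ℤ)) = p ^ 2 := by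
  obtain ⟨m, rfl⟩ := hodd
  rw [← card_torsion_eq W hΔ m (by omega) hp]
  exact Nat.card_congr (Equiv.subtypeEquivRight fun Q => by
    rw [Submodule.mem_torsionBy_iff, natCast_zsmul])

end Curve

section Qbar

open WeierstrassCurve.Affine.Point

/-- **`#E[p](ℚ̄) = p ^ 2`** in the shape of the frozen statements. -/
theorem card_torsionBy_Qbar (E : WeierstrassCurve ℚ) (hΔ : E.Δ ≠ 0) {p : ℕ} (hp : p.Prime)
    (hp2 : p ≠ 2) :
    Nat.card (Submodule.torsionBy ℤ (E⁄(AlgebraicClosure ℚ)).Point p) = p ^ 2 := by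
  have hΔ' : (E.baseChange (AlgebraicClosure ℚ)).Δ ≠ 0 := by
    rw [WeierstrassCurve.baseChange, WeierstrassCurve.map_Δ]
    exact (_root_.map_ne_zero _).2 hΔ
  have h3 : 3 ≤ p := by
    have := hp.two_le
    omega
  exact card_torsionBy_eq (E.baseChange (AlgebraicClosure ℚ)) hΔ' h3 (hp.odd_of_ne_two hp2)
    (by exact_mod_cast hp.ne_zero)

/-- `E[p](ℚ̄)` is finite. -/
theorem finite_torsionBy_Qbar (E : WeierstrassCurve ℚ) (hΔ : E.Δ ≠ 0) {p : ℕ} (hp : p.Prime)
    (hp2 : p ≠ 2) : Finite (Submodule.torsionBy ℤ (E⁄(AlgebraicClosure ℚ)).Point p) :=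
  Nat.finite_of_card_ne_zero (by
    rw [card_torsionBy_Qbar E hΔ hp hp2]
    exact pow_ne_zero 2 hp.ne_zero)

/-- **`dim E[p](ℚ̄) = 2`.** -/
theorem finrank_torsionBy_Qbar (E : WeierstrassCurve ℚ) (hΔ : E.Δ ≠ 0) {p : ℕ} (hp : p.Prime)
    (hp2 : p ≠ 2) :
    Module.finrank (ZMod p) (Submodule.torsionBy ℤ (E⁄(AlgebraicClosure ℚ)).Point p) = 2 := by
  have : Fact p.Prime := ⟨hp⟩
  have := finite_torsionBy_Qbar E hΔ hp hp2
  have h := Module.natCard_eq_pow_finrank (K := ZMod p)
    (V := Submodule.torsionBy ℤ (E⁄(AlgebraicClosure ℚ)).Point p)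
  rw [card_torsionBy_Qbar E hΔ hp hp2, Nat.card_zmod] at h
  exact (Nat.pow_right_injective hp.two_le h).symm

end Qbar

end Fermat.Agent.S41.G
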