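import Mathlib
import Fermat.Statements.S41
import Fermat.Agent.S41.G.TorsCard
import Fermat.Agent.S51.Count

/-!
# S41, block G-E : a number field over which all points of `E[p](ℚ̄)` are defined
-/

set_option autoImplicit false

open WeierstrassCurve WeierstrassCurve.Affine WeierstrassCurve.Affine.Point

namespace Fermat.Agent.S41.G

local notation "Qb" => AlgebraicClosure ℚ
local notation "GQ" => (AlgebraicClosure ℚ ≃ₐ[ℚ] AlgebraicClosure ℚ)

open Polynomial in
/-- the `2`-torsion is finite (characteristic `≠ 2`). -/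
theorem torsField_finite_two {K : Type*} [Field K] [DecidableEq K] (h2 : (2 : K) ≠ 0)
    (W : WeierstrassCurve.Affine K) : Finite (Submodule.torsionBy ℤ W.Point ((2 : ℕ) : ℤ)) := by
  set f : K[X] := C 4 * X ^ 3 + C (4 * W.a₂ + W.a₁ ^ 2) * X ^ 2 + C (4 * W.a₄ + 2 * W.a₁ * W.a₃) * X
    + C (4 * W.a₆ + W.a₃ ^ 2) with hf
  have h4 : (4 : K) ≠ 0 := by
    have : (4 : K) = 2 * 2 := by norm_num
    rw [this]
    exact mul_ne_zero h2 h2
  have hf0 : f ≠ 0 := by
    intro h
    have h1 : f.coeff 3 = 4 := by
      rw [hf]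
      simp only [coeff_add, coeff_C_mul, coeff_X_pow, coeff_X, coeff_C]
      norm_num
    rw [h, coeff_zero] at h1
    exact h4 h1.symm
  refine (Fermat.Agent.S51.finite_card_torsionBy_le (W := W) 2 f hf0 f.natDegree le_rfl ?_).1
  intro x y h hP
  have h1 : Point.some x y h = - Point.some x y h := by
    rw [two_nsmul] at hP
    exact eq_neg_of_add_eq_zero_left hP
  rw [Point.neg_some, Point.some.injEq] at h1
  have h3 : y = W.negY x y := h1.2
  rw [Affine.negY] at h3
  have heq := (W.equation_iff x y).1 h.1
  rw [hf]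
  simp only [eval_add, eval_mul, eval_C, eval_pow, eval_X]
  have h5 : 2 * y + W.a₁ * x + W.a₃ = 0 := by linear_combination h3
  linear_combination (-4 : K) * heq + (2 * y + W.a₁ * x + W.a₃) * h5

/-- the coordinates of a point. -/
def torsFieldCoords {K : Type*} [Field K] {W : WeierstrassCurve.Affine K} : W.Point → Set K
  | .zero => ∅
  | .some x y _ => {x, y}

theorem torsFieldCoords_finite {K : Type*} [Field K] {W : WeierstrassCurve.Affine K}
    (P : W.Point) : (torsFieldCoords P).Finite := by
  cases P with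
  | zero => exact Set.finite_empty
  | some x y h => exact (Set.finite_singleton y).insert x

theorem exists_torsion_field (E : WeierstrassCurve ℚ) [E.IsElliptic] {p : ℕ} (hp : p.Prime) :
    ∃ L : IntermediateField ℚ Qb, FiniteDimensional ℚ L ∧
      ∀ (g h : GQ), (∀ x ∈ L, g x = h x) →
        ∀ P : (E⁄Qb).Point, (p : ℤ) • P = 0 → g • P = h • P := by
  classical
  have hfin : Finite (Submodule.torsionBy ℤ (E⁄Qb).Point (p : ℤ)) := by
    by_cases hp2 : p = 2
    · subst hp2
      exact torsField_finite_two two_ne_zero _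
    · exact finite_torsionBy_Qbar E E.isUnit_Δ.ne_zero hp hp2
  set T : Set (E⁄Qb).Point := (Submodule.torsionBy ℤ (E⁄Qb).Point (p : ℤ) : Set (E⁄Qb).Point)
    with hT
  have hTfin : T.Finite := Set.toFinite _
  set C : Set Qb := ⋃ P ∈ T, torsFieldCoords P with hC
  have hCfin : C.Finite := hTfin.biUnion fun P _ => torsFieldCoords_finite P
  have : Finite C := hCfin
  refine ⟨IntermediateField.adjoin ℚ C,
    IntermediateField.finiteDimensional_adjoin fun x _ =>
      ((AlgebraicClosure.isAlgebraic ℚ).isAlgebraic x).isIntegral, ?_⟩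
  intro g h hgh P hP
  have hPT : P ∈ T := (Submodule.mem_torsionBy_iff _ _).2 hP
  cases P with
  | zero => rfl
  | some x y hxy =>
    have hx : x ∈ IntermediateField.adjoin ℚ C :=
      IntermediateField.subset_adjoin ℚ C
        (Set.mem_biUnion hPT (by simp [torsFieldCoords]))
    have hy : y ∈ IntermediateField.adjoin ℚ C :=
      IntermediateField.subset_adjoin ℚ C
        (Set.mem_biUnion hPT (by simp [torsFieldCoords]))
    rw [algEquiv_smul_def, algEquiv_smul_def, Point.map_some, Point.map_some]
    have e1 : g.toAlgHom x = h.toAlgHom x := hgh x hx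
    have e2 : g.toAlgHom y = h.toAlgHom y := hgh y hy
    simp only [e1, e2]

end Fermat.Agent.S41.G
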