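import Fermat.Agent.S41.G.FrobCH
import Fermat.Agent.S41.G.TorsField
import Fermat.Agent.S41.G.GroupLemma
import Fermat.Agent.S41.G.TorsCard
import Fermat.Agent.GAL.Cheb.Export

/-!
# S41, block G (non-Eisenstein): assembly
-/

set_option autoImplicit false

open WeierstrassCurve WeierstrassCurve.Affine WeierstrassCurve.Affine.Point
open Fermat.Agent.S05 Fermat.Agent.S52

namespace Fermat.Agent.S41.G

local notation "Qb" => AlgebraicClosure ℚ
local notation "GQ" => (AlgebraicClosure ℚ ≃ₐ[ℚ] AlgebraicClosure ℚ)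

/-- if `(s - α)(s - β) = 0` then `(s^j - α^j)(s^j - β^j) = 0`. -/
theorem assembly_pow {F : Type*} [Field F] {V : Type*} [AddCommGroup V] [Module F V]
    (s : Module.End F V) (α β : F)
    (h : ∀ v : V, s (s v) - (α + β) • s v + (α * β) • v = 0) (j : ℕ) (v : V) :
    (s ^ j) ((s ^ j) v) - (α ^ j + β ^ j) • (s ^ j) v + (α ^ j * β ^ j) • v = 0 := by
  open Polynomial in
  have h0 : aeval s ((X - C α) * (X - C β) : F[X]) = 0 := by
    ext v
    have := h v
    simp only [map_mul, map_sub, aeval_X, aeval_C, Module.End.mul_apply, LinearMap.sub_apply,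
      Module.algebraMap_end_apply, map_smul, LinearMap.zero_apply]
    rw [← this]
    simp only [smul_sub, add_smul, mul_smul]
    rw [smul_comm β α v]
    abel
  open Polynomial in
  have hdvd : ((X - C α) * (X - C β) : F[X]) ∣ (X ^ j - C (α ^ j)) * (X ^ j - C (β ^ j)) := by
    apply mul_dvd_mul
    · rw [C_pow]; exact sub_dvd_pow_sub_pow _ _ _
    · rw [C_pow]; exact sub_dvd_pow_sub_pow _ _ _
  open Polynomial in
  have h1 : aeval s ((X ^ j - C (α ^ j)) * (X ^ j - C (β ^ j)) : F[X]) = 0 := by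
    obtain ⟨q, hq⟩ := hdvd
    rw [hq, map_mul, h0, zero_mul]
  have h2 := congrArg (fun f : Module.End F V => f v) h1
  open Polynomial in
  simp only [map_mul, map_sub, aeval_X_pow, aeval_C, Module.End.mul_apply, LinearMap.sub_apply,
      Module.algebraMap_end_apply, map_smul, LinearMap.zero_apply] at h2
  rw [← h2]
  simp only [smul_sub, add_smul, mul_smul]
  rw [smul_comm (β ^ j) (α ^ j) v]
  abel

theorem assembly_Δ_ne_zero (E : WeierstrassCurve ℚ) [E.IsElliptic] {W : WeierstrassCurve ℤ}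
    (hW : W.IsIntegralModelOf E) : W.Δ ≠ 0 := by
  obtain ⟨C, hC⟩ := hW
  intro h
  have h1 : (C • E).Δ = 0 := by
    rw [hC, WeierstrassCurve.map_Δ, h, _root_.map_zero]
  rw [WeierstrassCurve.variableChange_Δ] at h1
  have h2 : E.Δ ≠ 0 := E.isUnit_Δ.ne_zero
  have h3 : ((C.u⁻¹ : ℚˣ) : ℚ) ^ 12 ≠ 0 := pow_ne_zero _ (Units.ne_zero _)
  exact (mul_ne_zero h3 h2) h1

theorem exists_nonEisenstein_prime (E : WeierstrassCurve ℚ) [E.IsElliptic]
    {W : WeierstrassCurve ℤ} (hW : W.IsIntegralModelOf E) {p : ℕ} (hp : p.Prime) (hp2 : p ≠ 2)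
    (hirr : GaloisRepIsIrreducible (K := AlgebraicClosure ℚ) ℚ E p) (T : Finset ℕ) :
    ∃ ℓ : ℕ, ℓ.Prime ∧ ℓ ∉ T ∧ W.IsGoodPrimeFor ℓ ∧
      ¬ (p : ℤ) ∣ (W.apOfModel ℓ) ^ 2 - ((ℓ : ℤ) + 1) ^ 2 := by
  classical
  by_contra hcon
  push Not at hcon
  have : Fact p.Prime := ⟨hp⟩
  have hΔ := assembly_Δ_ne_zero E hW
  obtain ⟨L, hLfin, hL⟩ := exists_torsion_field E hp
  let V := Submodule.torsionBy ℤ (E⁄Qb).Point p
  let R : GQ →* (V ≃ₗ[ZMod p] V) := DistribMulAction.toModuleAut (ZMod p) V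
  have hRapp : ∀ (γ : GQ) (v : V), R γ v = γ • v := fun _ _ => rfl
  have h2F : (2 : ZMod p) ≠ 0 := by
    intro h
    have h' : ((2 : ℕ) : ZMod p) = 0 := by exact_mod_cast h
    rw [ZMod.natCast_eq_zero_iff] at h'
    exact hp2 ((Nat.prime_dvd_prime_iff_eq hp Nat.prime_two).1 h')
  have hS : ∀ g ∈ R.range, ∃ ε d : ZMod p, ε ^ 2 = 1 ∧
      ∀ v : V, g (g v) - (ε + d) • g v + (ε * d) • v = 0 := by
    rintro _ ⟨γ, rfl⟩
    obtain ⟨ℓ, A, σ, j, hℓ, hℓT, hA, hσ, hj⟩ :=
      Fermat.Agent.GAL.Cheb.weakChebotarev_asm L hLfin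
        (T ∪ {2, 3, p} ∪ W.Δ.natAbs.primeFactors) γ
    simp only [Finset.mem_union, Finset.mem_insert, Finset.mem_singleton, not_or] at hℓT
    obtain ⟨⟨hT, h2, h3, hℓp⟩, hbad⟩ := hℓT
    have hgood : W.IsGoodPrimeFor ℓ := by
      intro hdvd
      apply hbad
      rw [Nat.mem_primeFactors]
      exact ⟨hℓ, Int.natCast_dvd.1 hdvd, by simpa using hΔ⟩
    have hℓ5 : 5 ≤ ℓ := by
      have := hℓ.two_le
      by_contra hlt
      have h4 : ℓ = 4 := by omega
      rw [h4] at hℓ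
      exact absurd hℓ (by norm_num)
    -- the sign
    obtain ⟨ε, hε, haε⟩ : ∃ ε : ZMod p, ε ^ 2 = 1 ∧
        ((W.apOfModel ℓ : ℤ) : ZMod p) = ε + ε * (ℓ : ZMod p) := by
      have h := hcon ℓ hℓ hT hgood
      have hfac : (W.apOfModel ℓ) ^ 2 - ((ℓ : ℤ) + 1) ^ 2
          = (W.apOfModel ℓ - ((ℓ : ℤ) + 1)) * (W.apOfModel ℓ + ((ℓ : ℤ) + 1)) := by ring
      rw [hfac] at h
      rcases (Nat.prime_iff_prime_int.1 hp).dvd_or_dvd h with h | h
      · refine ⟨1, by norm_num, ?_⟩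
        have := (ZMod.intCast_zmod_eq_zero_iff_dvd _ p).2 h
        push_cast at this
        linear_combination this
      · refine ⟨-1, by norm_num, ?_⟩
        have := (ZMod.intCast_zmod_eq_zero_iff_dvd _ p).2 h
        push_cast at this
        linear_combination this
    -- Cayley-Hamilton for `σ`
    have hCH : ∀ v : V, (R σ : Module.End (ZMod p) V) ((R σ : Module.End (ZMod p) V) v)
        - (ε + ε * (ℓ : ZMod p)) • (R σ : Module.End (ZMod p) V) v
        + (ε * (ε * (ℓ : ZMod p))) • v = 0 := by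
      intro v
      have hv : (p : ℤ) • (v : (E⁄Qb).Point) = 0 := by
        have := v.2
        rwa [Submodule.mem_torsionBy_iff] at this
      have h := frob_ch_torsion E hW hp hp2 hℓ hℓ5 hℓp hgood A hA σ hσ (v : (E⁄Qb).Point) hv
      have e1 : ε * (ε * (ℓ : ZMod p)) = ((ℓ : ℤ) : ZMod p) := by
        push_cast
        linear_combination (ℓ : ZMod p) * hε
      rw [← haε, e1, Int.cast_smul_eq_zsmul, Int.cast_smul_eq_zsmul]
      apply Subtype.ext
      exact h
    refine ⟨ε ^ j, (ε * (ℓ : ZMod p)) ^ j, by rw [← pow_mul, mul_comm, pow_mul, hε, one_pow], ?_⟩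
    intro v
    have hpow := assembly_pow (R σ : Module.End (ZMod p) V) ε (ε * (ℓ : ZMod p)) hCH j v
    have hγ : ∀ w : V, ((R σ : Module.End (ZMod p) V) ^ j) w = R γ w := by
      intro w
      have h1 : ∀ (i : ℕ) (w : V), ((R σ : Module.End (ZMod p) V) ^ i) w = (σ ^ i) • w := by
        intro i
        induction i with
        | zero => intro w; simp
        | succ i ih =>
          intro w
          rw [pow_succ, Module.End.mul_apply, pow_succ, mul_smul, ih]
          rfl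
      rw [h1 j w, hRapp]
      apply Subtype.ext
      have hw : (p : ℤ) • (w : (E⁄Qb).Point) = 0 := by
        have := w.2
        rwa [Submodule.mem_torsionBy_iff] at this
      exact hL (σ ^ j) γ hj (w : (E⁄Qb).Point) hw
    rw [hγ, hγ] at hpow
    exact hpow
  obtain ⟨N, hN0, hN1, hNS⟩ := group_lemma h2F (finrank_torsionBy_Qbar E E.isUnit_Δ.ne_zero hp hp2) R.range hS
  rcases hirr.2 N (fun σ x hx => hNS (R σ) ⟨σ, rfl⟩ x hx) with h | h
  · exact hN0 h
  · exact hN1 h

end Fermat.Agent.S41.G
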