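import Mathlib
import Fermat.Statements.S41
import Fermat.Agent.S05.WModel
import Fermat.Agent.S05.Red

/-!
# S41, block G (non-Eisenstein), G-A : the short integral model as a `Model` on `E(Qbar)`
-/

set_option autoImplicit false

open WeierstrassCurve WeierstrassCurve.Affine WeierstrassCurve.Affine.Point
open Fermat.Agent.S05

namespace Fermat.Agent.S41.G

local notation "Qb" => AlgebraicClosure ℚ
local notation "GQ" => (AlgebraicClosure ℚ ≃ₐ[ℚ] AlgebraicClosure ℚ)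

/-! ### G-A : the short integral model as a `Model` on `E(Qbar)` -/

theorem Model_tri_scale {K : Type*} [Field K] {a₂ a₄ a₆ x₁ y₁ x₂ y₂ x₃ y₃ : K} (u : K)
    (T : Tri a₂ a₄ a₆ x₁ y₁ x₂ y₂ x₃ y₃) :
    Tri (u ^ 2 * a₂) (u ^ 4 * a₄) (u ^ 6 * a₆) (u ^ 2 * x₁) (u ^ 3 * y₁) (u ^ 2 * x₂) (u ^ 3 * y₂)
      (u ^ 2 * x₃) (u ^ 3 * y₃) := by
  obtain ⟨l, k, h1, h2, h3, e1, e2, e3⟩ := T
  refine ⟨u * l, u ^ 3 * k, ?_, ?_, ?_, ?_, ?_, ?_⟩
  · linear_combination u ^ 3 * h1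
  · linear_combination u ^ 3 * h2
  · linear_combination u ^ 3 * h3
  · linear_combination u ^ 2 * e1
  · linear_combination u ^ 4 * e2
  · linear_combination u ^ 6 * e3

set_option linter.unusedVariables false in
/-- scaling a model. -/
theorem exists_model_scale {K : Type*} [Field K] {G : Type*} [AddCommGroup G] {a₂ a₄ a₆ : K}
    (M : Model G a₂ a₄ a₆) (u : K) (hu : u ≠ 0) :
    ∃ M' : Model G (u ^ 2 * a₂) (u ^ 4 * a₄) (u ^ 6 * a₆),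
      (∀ P, M'.X P = u ^ 2 * M.X P) ∧ (∀ P, M'.Y P = u ^ 3 * M.Y P) := by
  refine ⟨{ X := fun P => u ^ 2 * M.X P
            Y := fun P => u ^ 3 * M.Y P
            eqn := fun P hP => by
              have := M.eqn P hP
              linear_combination u ^ 6 * this
            X_neg := fun P => by simp only [M.X_neg]
            Y_neg := fun P => by simp only [M.Y_neg, mul_neg]
            tri := fun P Q R hP hQ hR h => Model_tri_scale u (M.tri P Q R hP hQ hR h) },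
    fun _ => rfl, fun _ => rfl⟩

theorem Model_exists_congr {K : Type*} [Field K] {G : Type*} [AddCommGroup G]
    {a₂ a₄ a₆ b₂ b₄ b₆ : K} (M : Model G a₂ a₄ a₆) (h₂ : a₂ = b₂) (h₄ : a₄ = b₄) (h₆ : a₆ = b₆) :
    ∃ M' : Model G b₂ b₄ b₆, (∀ P, M'.X P = M.X P) ∧ (∀ P, M'.Y P = M.Y P) := by
  subst h₂ h₄ h₆
  exact ⟨M, fun _ => rfl, fun _ => rfl⟩

theorem exists_model (E : WeierstrassCurve ℚ) {W : WeierstrassCurve ℤ}
    (hW : W.IsIntegralModelOf E) :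
    ∃ M : Model ((E⁄Qb).Point) (0 : Qb) (((-27 * W.c₄ : ℤ) : Qb)) (((-54 * W.c₆ : ℤ) : Qb)),
      (∀ (σ : GQ) (P : (E⁄Qb).Point), P ≠ 0 → M.X (σ • P) = σ (M.X P)) ∧
      (∀ (σ : GQ) (P : (E⁄Qb).Point), P ≠ 0 → M.Y (σ • P) = σ (M.Y P)) := by
  obtain ⟨C, hC⟩ := hW
  have h2 : (2 : Qb) ≠ 0 := two_ne_zero
  -- invariants
  have hc₄ : ((W.c₄ : ℤ) : ℚ) = (C.u⁻¹ : ℚˣ) ^ 4 * E.c₄ := by
    rw [← variableChange_c₄, hC, map_c₄]
    rfl
  have hc₆ : ((W.c₆ : ℤ) : ℚ) = (C.u⁻¹ : ℚˣ) ^ 6 * E.c₆ := by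
    rw [← variableChange_c₆, hC, map_c₆]
    rfl
  set φ := algebraMap ℚ Qb with hφ
  have hb₂ : (E⁄Qb).b₂ = φ E.b₂ := map_b₂ E φ
  have hb₄ : (E⁄Qb).b₄ = φ E.b₄ := map_b₄ E φ
  have hb₆ : (E⁄Qb).b₆ = φ E.b₆ := map_b₆ E φ
  have ha₁ : (E⁄Qb).a₁ = φ E.a₁ := rfl
  have ha₃ : (E⁄Qb).a₃ = φ E.a₃ := rfl
  obtain ⟨r, hr⟩ : ∃ r : ℚ, r = -E.b₂ / 12 := ⟨_, rfl⟩
  obtain ⟨u, hu⟩ : ∃ u : ℚ, u = 6 * ((C.u⁻¹ : ℚˣ) : ℚ) := ⟨_, rfl⟩
  have hu0 : φ u ≠ 0 := by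
    rw [Ne, map_eq_zero_iff φ φ.injective, hu]
    exact mul_ne_zero (by norm_num) (Units.ne_zero _)
  let M1 : Model ((E⁄Qb).Point) (0 : Qb) (φ (-E.c₄ / 48)) (φ (-E.c₆ / 864)) :=
    (weierstrassModel (E⁄Qb) h2).shift (φ r)
      (by
        rw [hb₂, hr]
        have : (0 : Qb) = φ (E.b₂ / 4 + 3 * (-E.b₂ / 12)) := by
          rw [show E.b₂ / 4 + 3 * (-E.b₂ / 12) = 0 by ring, _root_.map_zero]
        rw [this]
        simp only [map_add, map_mul, map_div₀, map_neg, map_ofNat])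
      (by
        rw [hb₂, hb₄, hr]
        have : -E.c₄ / 48 = E.b₄ / 2 + 2 * (E.b₂ / 4) * (-E.b₂ / 12) + 3 * (-E.b₂ / 12) ^ 2 := by
          rw [WeierstrassCurve.c₄]; ring
        rw [this]
        simp only [map_add, map_mul, map_div₀, map_neg, map_ofNat, map_pow])
      (by
        rw [hb₂, hb₄, hb₆, hr]
        have : -E.c₆ / 864 = E.b₆ / 4 + E.b₄ / 2 * (-E.b₂ / 12) + E.b₂ / 4 * (-E.b₂ / 12) ^ 2
            + (-E.b₂ / 12) ^ 3 := by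
          rw [WeierstrassCurve.c₆]; ring
        rw [this]
        simp only [map_add, map_mul, map_div₀, map_neg, map_ofNat, map_pow])
  obtain ⟨M2, hX2, hY2⟩ := exists_model_scale M1 (φ u) hu0
  obtain ⟨M3, hX3, hY3⟩ := Model_exists_congr M2 (b₂ := (0 : Qb))
    (b₄ := (((-27 * W.c₄ : ℤ) : Qb))) (b₆ := (((-54 * W.c₆ : ℤ) : Qb))) (mul_zero _)
    (by
      have : (((-27 * W.c₄ : ℤ) : ℚ)) = u ^ 4 * (-E.c₄ / 48) := by
        push_cast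
        rw [hc₄, hu]; ring
      rw [← map_pow, ← map_mul, ← this]
      simp)
    (by
      have : (((-54 * W.c₆ : ℤ) : ℚ)) = u ^ 6 * (-E.c₆ / 864) := by
        push_cast
        rw [hc₆, hu]; ring
      rw [← map_pow, ← map_mul, ← this]
      simp)
  have hσφ : ∀ (σ : GQ) (a : ℚ), σ (φ a) = φ a := fun σ a => σ.commutes a
  refine ⟨M3, fun σ P hP => ?_, fun σ P hP => ?_⟩
  · rcases P with _ | ⟨x, y, h⟩
    · exact absurd rfl hP
    · rw [hX3, hX3, hX2, hX2, algEquiv_smul_def, Point.map_some]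
      show φ u ^ 2 * (σ x - φ r) = σ (φ u ^ 2 * (x - φ r))
      rw [map_mul, map_pow, map_sub, hσφ, hσφ]
  · rcases P with _ | ⟨x, y, h⟩
    · exact absurd rfl hP
    · rw [hY3, hY3, hY2, hY2, algEquiv_smul_def, Point.map_some]
      show φ u ^ 3 * (σ y + ((E⁄Qb).a₁ * σ x + (E⁄Qb).a₃) / 2) =
        σ (φ u ^ 3 * (y + ((E⁄Qb).a₁ * x + (E⁄Qb).a₃) / 2))
      rw [ha₁, ha₃, map_mul, map_pow, map_add, map_div₀, map_add, map_mul, hσφ, hσφ, hσφ,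
        map_ofNat]

end Fermat.Agent.S41.G
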