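import Mathlib
import Fermat.Agent.S05.Defs

/-!
# S41, block G, package G-B : collinear points have sum zero
-/

set_option autoImplicit false

open WeierstrassCurve WeierstrassCurve.Affine WeierstrassCurve.Affine.Point
open Fermat.Agent.S05

namespace Fermat.Agent.S41.G

/-! ### G-B : collinear points have sum zero -/

theorem add_eq_zero_of_tri {Ω : Type*} [Field Ω] [DecidableEq Ω] (h2 : (2 : Ω) ≠ 0)
    (W' : WeierstrassCurve.Affine Ω) (ha₁ : W'.a₁ = 0) (ha₃ : W'.a₃ = 0)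
    {x₁ y₁ x₂ y₂ x₃ y₃ : Ω} (h₁ : W'.Nonsingular x₁ y₁) (h₂ : W'.Nonsingular x₂ y₂)
    (h₃ : W'.Nonsingular x₃ y₃) (T : Tri W'.a₂ W'.a₄ W'.a₆ x₁ y₁ x₂ y₂ x₃ y₃) :
    Point.some x₁ y₁ h₁ + Point.some x₂ y₂ h₂ + Point.some x₃ y₃ h₃ = 0 := by
  obtain ⟨l, k, e₁, e₂, e₃, v₁, v₂, v₃⟩ := T
  have hneg : ∀ x y : Ω, W'.negY x y = -y := by
    intro x y
    rw [negY, ha₁, ha₃]
    ring
  -- the derivative at a double point
  have hder : x₁ = x₂ → 3 * x₁ ^ 2 + 2 * W'.a₂ * x₁ + W'.a₄ = 2 * l * y₁ := by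
    intro hx
    subst hx
    rw [e₁]
    linear_combination -v₂ + 2 * x₁ * v₁
  have hy0 : x₁ = x₂ → y₁ ≠ 0 := by
    intro hx hy
    have hd := hder hx
    rw [hy, mul_zero] at hd
    rcases ((nonsingular_iff x₁ y₁).mp h₁).2 with h | h
    · rw [ha₁, zero_mul, hd] at h
      exact h rfl
    · rw [hy, ha₁, ha₃] at h
      apply h
      ring
  have hyy : x₁ = x₂ → y₁ = y₂ := by
    intro hx
    rw [e₁, e₂, hx]
  have hxy : ¬(x₁ = x₂ ∧ y₁ = W'.negY x₂ y₂) := by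
    rintro ⟨hx, hy⟩
    rw [hneg, ← hyy hx] at hy
    apply hy0 hx
    have h3 : 2 * y₁ = 0 := by linear_combination hy
    exact (mul_eq_zero.mp h3).resolve_left h2
  have hslope : W'.slope x₁ x₂ y₁ y₂ = l := by
    by_cases hx : x₁ = x₂
    · have hy : y₁ ≠ W'.negY x₂ y₂ := fun hy => hxy ⟨hx, hy⟩
      rw [slope_of_Y_ne hx hy, hneg, ha₁, zero_mul, sub_zero, hder hx]
      have h4 : y₁ - -y₁ ≠ 0 := by
        have : y₁ - -y₁ = 2 * y₁ := by ring
        rw [this]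
        exact mul_ne_zero h2 (hy0 hx)
      rw [div_eq_iff h4]
      ring
    · rw [slope_of_X_ne hx, div_eq_iff (sub_ne_zero.mpr hx), e₁, e₂]
      ring
  rw [add_eq_zero_iff_eq_neg, neg_some, add_some hxy]
  simp only [Point.some.injEq]
  have hX : W'.addX x₁ x₂ (W'.slope x₁ x₂ y₁ y₂) = x₃ := by
    rw [hslope, addX, ha₁]
    linear_combination -v₁
  refine ⟨hX, ?_⟩
  rw [addY, hneg, hneg, negAddY, hX, hslope, e₁, e₃]
  ring

end Fermat.Agent.S41.G
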