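import Mathlib
import Fermat.Agent.S05.Red

/-!
# S41, block G, package G-C1: valuation lemmas on collinear triples
-/

set_option autoImplicit false
set_option linter.unusedVariables false

open WeierstrassCurve WeierstrassCurve.Affine WeierstrassCurve.Affine.Point
open Fermat.Agent.S05

namespace Fermat.Agent.S41.G

section red

variable {K : Type*} [Field K] (A : ValuationSubring K) {Ω : Type*} [Field Ω]
  (ρ : A →+* Ω)

theorem triRed_mem_of_sq_mem {x : K} (h : x ^ 2 ∈ A) : x ∈ A := by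
  rw [← A.valuation_le_one_iff] at h ⊢
  exact v_le_one_of_sq A.valuation h

/-- if `l ∉ A` and `l * z ∈ A` then `z` is a nonunit. -/
theorem triRed_nonunit_of_mul_mem {l z : K} (hl : l ∉ A) (h : l * z ∈ A) : z ∈ A.nonunits := by
  rw [← A.valuation_le_one_iff] at hl h
  rw [not_le] at hl
  rw [ValuationSubring.mem_nonunits_iff]
  by_contra hz
  rw [not_lt] at hz
  rw [map_mul] at h
  have : 1 < A.valuation l * A.valuation z := one_lt_mul_of_lt_of_le' hl hz
  exact absurd h (not_le.mpr this)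

/-- (C1) three integral collinear points reduce to collinear points. -/
theorem tri_red (α₄ α₆ : A) {x₁ y₁ x₂ y₂ x₃ y₃ : A}
    (T : Tri (0 : K) (α₄ : K) (α₆ : K) x₁ y₁ x₂ y₂ x₃ y₃) :
    Tri (0 : Ω) (ρ α₄) (ρ α₆) (ρ x₁) (ρ y₁) (ρ x₂) (ρ y₂) (ρ x₃) (ρ y₃) := by
  obtain ⟨l, k, h1, h2, h3, e1, e2, e3⟩ := T
  have hl : l ∈ A := by
    apply triRed_mem_of_sq_mem
    have : l ^ 2 = ((x₁ + x₂ + x₃ : A) : K) := by
      push_cast
      linear_combination -e1
    rw [this]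
    exact (x₁ + x₂ + x₃ : A).2
  have hk : k ∈ A := by
    have : k = ((y₁ - ⟨l, hl⟩ * x₁ : A) : K) := by
      push_cast
      linear_combination -h1
    rw [this]
    exact (y₁ - ⟨l, hl⟩ * x₁ : A).2
  set l' : A := ⟨l, hl⟩ with hl'
  set k' : A := ⟨k, hk⟩ with hk'
  have H1 : y₁ = l' * x₁ + k' := Subtype.ext (by push_cast; exact h1)
  have H2 : y₂ = l' * x₂ + k' := Subtype.ext (by push_cast; exact h2)
  have H3 : y₃ = l' * x₃ + k' := Subtype.ext (by push_cast; exact h3)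
  have E1 : x₁ + x₂ + x₃ = l' ^ 2 - 0 := Subtype.ext (by push_cast; exact e1)
  have E2 : x₁ * x₂ + x₁ * x₃ + x₂ * x₃ = α₄ - 2 * l' * k' := Subtype.ext (by push_cast; exact e2)
  have E3 : x₁ * x₂ * x₃ = k' ^ 2 - α₆ := Subtype.ext (by push_cast; exact e3)
  refine ⟨ρ l', ρ k', ?_, ?_, ?_, ?_, ?_, ?_⟩
  · simpa using congrArg ρ H1
  · simpa using congrArg ρ H2
  · simpa using congrArg ρ H3
  · simpa using congrArg ρ E1
  · have hρ2 : ρ 2 = 2 := map_ofNat ρ 2
    simpa [hρ2] using congrArg ρ E2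
  · simpa using congrArg ρ E3

/-- (C2) if the third point is not integral, the first two reduce to opposite points. -/
theorem tri_red_opp (hρ : ∀ a : A, ρ a = 0 ↔ (a : K) ∈ A.nonunits) (h2 : (2 : Ω) ≠ 0) (α₄ α₆ : A) {x₁ y₁ x₂ y₂ : A} {x₃ y₃ : K}
    (T : Tri (0 : K) (α₄ : K) (α₆ : K) x₁ y₁ x₂ y₂ x₃ y₃) (h₃ : x₃ ∉ A) :
    ρ x₁ = ρ x₂ ∧ ρ y₁ = - ρ y₂ := by
  obtain ⟨l, k, h1, h2', h3, e1, e2, e3⟩ := T
  have hl : l ∉ A := by
    intro hl
    apply h₃
    have : x₃ = ((⟨l, hl⟩ ^ 2 - x₁ - x₂ : A) : K) := by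
      push_cast
      linear_combination e1
    rw [this]
    exact (⟨l, hl⟩ ^ 2 - x₁ - x₂ : A).2
  constructor
  · have h : l * ((x₁ - x₂ : A) : K) ∈ A := by
      have : l * ((x₁ - x₂ : A) : K) = ((y₁ - y₂ : A) : K) := by
        push_cast
        linear_combination h2' - h1
      rw [this]
      exact (y₁ - y₂ : A).2
    have := (hρ (x₁ - x₂)).2 (triRed_nonunit_of_mul_mem A hl h)
    rwa [map_sub, sub_eq_zero] at this
  · have h : l * ((y₁ + y₂ : A) : K) ∈ A := by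
      have : l * ((y₁ + y₂ : A) : K) = ((x₁ ^ 2 + x₁ * x₂ + x₂ ^ 2 + α₄ : A) : K) := by
        push_cast
        rw [h1, h2']
        linear_combination (-(x₁ : K) - x₂) * e1 + e2
      rw [this]
      exact (x₁ ^ 2 + x₁ * x₂ + x₂ ^ 2 + α₄ : A).2
    have := (hρ (y₁ + y₂)).2 (triRed_nonunit_of_mul_mem A hl h)
    rwa [map_add, add_eq_zero_iff_eq_neg] at this

end red

end Fermat.Agent.S41.G
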