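import Mathlib
import Fermat.Agent.S05.KerRed
import Fermat.Agent.S05.Red
import Fermat.Agent.S41.G.TriConv
import Fermat.Agent.S41.G.TriRed

/-!
# S41, block G-C3 : the reduction homomorphism `G →+ W'.Point` of a `Model` with good reduction
-/

set_option autoImplicit false

open WeierstrassCurve WeierstrassCurve.Affine WeierstrassCurve.Affine.Point
open Fermat.Agent.S05

namespace Fermat.Agent.S41.G

section red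

variable {K : Type*} [Field K] (A : ValuationSubring K) {Ω : Type*} [Field Ω]
  (ρ : A →+* Ω)

theorem RedHom_Y_mem {G : Type*} [AddCommGroup G] (α₄ α₆ : A)
    (M : Model G (0 : K) (α₄ : K) (α₆ : K)) {P : G} (hP : P ≠ 0) (hx : M.X P ∈ A) :
    M.Y P ∈ A := by
  rw [← A.valuation_le_one_iff] at hx ⊢
  exact M.v_Y_le_one A.valuation (by simp) (A.valuation_le_one α₄) (A.valuation_le_one α₆) hP hx

theorem RedHom_nonsingular {G : Type*} [AddCommGroup G] (α₄ α₆ : A)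
    (M : Model G (0 : K) (α₄ : K) (α₆ : K)) (W' : WeierstrassCurve.Affine Ω)
    (ha₁ : W'.a₁ = 0) (ha₂ : W'.a₂ = 0) (ha₃ : W'.a₃ = 0) (ha₄ : W'.a₄ = ρ α₄)
    (ha₆ : W'.a₆ = ρ α₆) (hΔ : W'.Δ ≠ 0) {P : G} (hP : P ≠ 0) (hx : M.X P ∈ A)
    (hy : M.Y P ∈ A) : W'.Nonsingular (ρ ⟨M.X P, hx⟩) (ρ ⟨M.Y P, hy⟩) := by
  rw [← W'.equation_iff_nonsingular_of_Δ_ne_zero hΔ, Affine.equation_iff, ha₁, ha₂, ha₃, ha₄, ha₆]
  have h : (⟨M.Y P, hy⟩ : A) ^ 2 = (⟨M.X P, hx⟩ : A) ^ 3 + α₄ * ⟨M.X P, hx⟩ + α₆ := by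
    apply Subtype.ext
    have := M.eqn P hP
    push_cast
    linear_combination this
  have h' := congrArg ρ h
  simp only [map_pow, map_add, map_mul] at h'
  linear_combination h'

theorem RedHom_some_congr (W' : WeierstrassCurve.Affine Ω) {x x' y y' : Ω} (hx : x = x')
    (hy : y = y') (h : W'.Nonsingular x y) (h' : W'.Nonsingular x' y') :
    Point.some x y h = Point.some x' y' h' := by
  subst hx; subst hy; rfl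

/-- the reduction map, as a function. -/
noncomputable def RedHom_fun {G : Type*} [AddCommGroup G] (α₄ α₆ : A)
    (M : Model G (0 : K) (α₄ : K) (α₆ : K)) (W' : WeierstrassCurve.Affine Ω)
    (ha₁ : W'.a₁ = 0) (ha₂ : W'.a₂ = 0) (ha₃ : W'.a₃ = 0) (ha₄ : W'.a₄ = ρ α₄)
    (ha₆ : W'.a₆ = ρ α₆) (hΔ : W'.Δ ≠ 0) (P : G) : W'.Point :=
  open Classical in
  if h : P ≠ 0 ∧ M.X P ∈ A then
    Point.some (ρ ⟨M.X P, h.2⟩) (ρ ⟨M.Y P, RedHom_Y_mem A α₄ α₆ M h.1 h.2⟩)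
      (RedHom_nonsingular A ρ α₄ α₆ M W' ha₁ ha₂ ha₃ ha₄ ha₆ hΔ h.1 h.2 _)
  else 0

section
variable {G : Type*} [AddCommGroup G] (α₄ α₆ : A)
    (M : Model G (0 : K) (α₄ : K) (α₆ : K)) (W' : WeierstrassCurve.Affine Ω)
    (ha₁ : W'.a₁ = 0) (ha₂ : W'.a₂ = 0) (ha₃ : W'.a₃ = 0) (ha₄ : W'.a₄ = ρ α₄)
    (ha₆ : W'.a₆ = ρ α₆) (hΔ : W'.Δ ≠ 0)

local notation "r" => RedHom_fun A ρ α₄ α₆ M W' ha₁ ha₂ ha₃ ha₄ ha₆ hΔ

theorem RedHom_fun_zero : r 0 = 0 := by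
  unfold RedHom_fun
  rw [dif_neg]
  exact fun h => h.1 rfl

theorem RedHom_fun_of_not_mem {P : G} (h : M.X P ∉ A) : r P = 0 := by
  unfold RedHom_fun
  rw [dif_neg]
  exact fun h' => h h'.2

theorem RedHom_fun_of_mem {P : G} (hP : P ≠ 0) (hx : M.X P ∈ A) :
    r P = Point.some (ρ ⟨M.X P, hx⟩) (ρ ⟨M.Y P, RedHom_Y_mem A α₄ α₆ M hP hx⟩)
      (RedHom_nonsingular A ρ α₄ α₆ M W' ha₁ ha₂ ha₃ ha₄ ha₆ hΔ hP hx _) := by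
  unfold RedHom_fun
  rw [dif_pos ⟨hP, hx⟩]

theorem RedHom_fun_neg (P : G) : r (-P) = - r P := by
  by_cases hP : P = 0
  · subst hP
    rw [_root_.neg_zero, RedHom_fun_zero]; rfl
  by_cases hx : M.X P ∈ A
  · have hP' : -P ≠ 0 := neg_ne_zero.mpr hP
    have hx' : M.X (-P) ∈ A := by rw [M.X_neg]; exact hx
    rw [RedHom_fun_of_mem A ρ α₄ α₆ M W' ha₁ ha₂ ha₃ ha₄ ha₆ hΔ hP hx,
      RedHom_fun_of_mem A ρ α₄ α₆ M W' ha₁ ha₂ ha₃ ha₄ ha₆ hΔ hP' hx', Point.neg_some]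
    apply RedHom_some_congr
    · congr 1
      exact Subtype.ext (M.X_neg P)
    · rw [Affine.negY, ha₁, ha₃, ← map_neg]
      simp only [zero_mul, sub_zero]
      congr 1
      exact Subtype.ext (M.Y_neg P)
  · have hx' : M.X (-P) ∉ A := by rw [M.X_neg]; exact hx
    rw [RedHom_fun_of_not_mem A ρ α₄ α₆ M W' ha₁ ha₂ ha₃ ha₄ ha₆ hΔ hx,
      RedHom_fun_of_not_mem A ρ α₄ α₆ M W' ha₁ ha₂ ha₃ ha₄ ha₆ hΔ hx']
    rfl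

variable [DecidableEq Ω]

include ha₁ ha₂ ha₃ ha₄ ha₆ hΔ in
/-- the third point is not integral. -/
theorem RedHom_key_aux (hρ : ∀ a : A, ρ a = 0 ↔ (a : K) ∈ A.nonunits) (h2 : (2 : Ω) ≠ 0)
    {P Q R : G} (hP : P ≠ 0) (hQ : Q ≠ 0) (hR : R ≠ 0) (h : P + Q + R = 0) (hxR : M.X R ∉ A) :
    r P + r Q = 0 := by
  have T := M.tri P Q R hP hQ hR h
  have hv : ∀ x : K, x ∉ A ↔ 1 < A.valuation x := fun x => by
    rw [← not_le, A.valuation_le_one_iff]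
  have h0 : A.valuation (0 : K) ≤ 1 := by simp
  by_cases hxP : M.X P ∈ A
  · by_cases hxQ : M.X Q ∈ A
    · rw [RedHom_fun_of_mem A ρ α₄ α₆ M W' ha₁ ha₂ ha₃ ha₄ ha₆ hΔ hP hxP,
        RedHom_fun_of_mem A ρ α₄ α₆ M W' ha₁ ha₂ ha₃ ha₄ ha₆ hΔ hQ hxQ]
      obtain ⟨e1, e2⟩ := tri_red_opp A ρ hρ h2 α₄ α₆ (x₁ := ⟨M.X P, hxP⟩)
        (y₁ := ⟨M.Y P, RedHom_Y_mem A α₄ α₆ M hP hxP⟩) (x₂ := ⟨M.X Q, hxQ⟩)
        (y₂ := ⟨M.Y Q, RedHom_Y_mem A α₄ α₆ M hQ hxQ⟩) T hxR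
      apply Point.add_of_Y_eq e1
      rw [Affine.negY, ha₁, ha₃, e2]
      ring
    · exfalso
      have := tri_E1_closed A.valuation h0 (A.valuation_le_one α₄) (A.valuation_le_one α₆)
        T.rot ((hv _).mp hxQ) ((hv _).mp hxR)
      exact (hv _).mpr this hxP
  · by_cases hxQ : M.X Q ∈ A
    · exfalso
      have := tri_E1_closed A.valuation h0 (A.valuation_le_one α₄) (A.valuation_le_one α₆)
        T.rot.rot ((hv _).mp hxR) ((hv _).mp hxP)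
      exact (hv _).mpr this hxQ
    · rw [RedHom_fun_of_not_mem A ρ α₄ α₆ M W' ha₁ ha₂ ha₃ ha₄ ha₆ hΔ hxP,
        RedHom_fun_of_not_mem A ρ α₄ α₆ M W' ha₁ ha₂ ha₃ ha₄ ha₆ hΔ hxQ, add_zero]

theorem RedHom_key (hρ : ∀ a : A, ρ a = 0 ↔ (a : K) ∈ A.nonunits) (h2 : (2 : Ω) ≠ 0)
    {P Q R : G} (h : P + Q + R = 0) : r P + r Q + r R = 0 := by
  by_cases hP : P = 0
  · subst hP
    have : R = -Q := by rw [zero_add] at h; exact (neg_eq_of_add_eq_zero_right h).symm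
    rw [this, RedHom_fun_zero, RedHom_fun_neg, zero_add, add_neg_cancel]
  by_cases hQ : Q = 0
  · subst hQ
    have : R = -P := by rw [add_zero] at h; exact (neg_eq_of_add_eq_zero_right h).symm
    rw [this, RedHom_fun_zero, RedHom_fun_neg, add_zero, add_neg_cancel]
  by_cases hR : R = 0
  · subst hR
    have : Q = -P := by rw [add_zero] at h; exact (neg_eq_of_add_eq_zero_right h).symm
    rw [this, RedHom_fun_zero, RedHom_fun_neg, add_zero, add_neg_cancel]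
  by_cases hxR : M.X R ∈ A
  · by_cases hxQ : M.X Q ∈ A
    · by_cases hxP : M.X P ∈ A
      · rw [RedHom_fun_of_mem A ρ α₄ α₆ M W' ha₁ ha₂ ha₃ ha₄ ha₆ hΔ hP hxP,
          RedHom_fun_of_mem A ρ α₄ α₆ M W' ha₁ ha₂ ha₃ ha₄ ha₆ hΔ hQ hxQ,
          RedHom_fun_of_mem A ρ α₄ α₆ M W' ha₁ ha₂ ha₃ ha₄ ha₆ hΔ hR hxR]
        apply add_eq_zero_of_tri h2 W' ha₁ ha₃
        rw [ha₂, ha₄, ha₆]
        exact tri_red A ρ α₄ α₆ (x₁ := ⟨M.X P, hxP⟩)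
          (y₁ := ⟨M.Y P, RedHom_Y_mem A α₄ α₆ M hP hxP⟩) (x₂ := ⟨M.X Q, hxQ⟩)
          (y₂ := ⟨M.Y Q, RedHom_Y_mem A α₄ α₆ M hQ hxQ⟩) (x₃ := ⟨M.X R, hxR⟩)
          (y₃ := ⟨M.Y R, RedHom_Y_mem A α₄ α₆ M hR hxR⟩) (M.tri P Q R hP hQ hR h)
      · have h' : Q + R + P = 0 := by rw [← h]; abel
        have := RedHom_key_aux A ρ α₄ α₆ M W' ha₁ ha₂ ha₃ ha₄ ha₆ hΔ hρ h2 hQ hR hP h' hxP
        rw [RedHom_fun_of_not_mem A ρ α₄ α₆ M W' ha₁ ha₂ ha₃ ha₄ ha₆ hΔ hxP, zero_add, this]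
    · have h' : R + P + Q = 0 := by rw [← h]; abel
      have := RedHom_key_aux A ρ α₄ α₆ M W' ha₁ ha₂ ha₃ ha₄ ha₆ hΔ hρ h2 hR hP hQ h' hxQ
      rw [RedHom_fun_of_not_mem A ρ α₄ α₆ M W' ha₁ ha₂ ha₃ ha₄ ha₆ hΔ hxQ, add_zero, add_comm, this]
  · have := RedHom_key_aux A ρ α₄ α₆ M W' ha₁ ha₂ ha₃ ha₄ ha₆ hΔ hρ h2 hP hQ hR h hxR
    rw [RedHom_fun_of_not_mem A ρ α₄ α₆ M W' ha₁ ha₂ ha₃ ha₄ ha₆ hΔ hxR, add_zero, this]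

theorem RedHom_fun_add (hρ : ∀ a : A, ρ a = 0 ↔ (a : K) ∈ A.nonunits) (h2 : (2 : Ω) ≠ 0)
    (P Q : G) : r (P + Q) = r P + r Q := by
  have h : P + Q + -(P + Q) = 0 := add_neg_cancel _
  have := RedHom_key A ρ α₄ α₆ M W' ha₁ ha₂ ha₃ ha₄ ha₆ hΔ hρ h2 h
  rw [RedHom_fun_neg] at this
  exact (eq_of_sub_eq_zero (by rw [sub_eq_add_neg]; exact this)).symm

end

/-- (C3) the reduction homomorphism. -/
theorem exists_red [DecidableEq Ω] (hρ : ∀ a : A, ρ a = 0 ↔ (a : K) ∈ A.nonunits)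
    (h2 : (2 : Ω) ≠ 0) {G : Type*} [AddCommGroup G] (α₄ α₆ : A)
    (M : Model G (0 : K) (α₄ : K) (α₆ : K)) (W' : WeierstrassCurve.Affine Ω)
    (ha₁ : W'.a₁ = 0) (ha₂ : W'.a₂ = 0) (ha₃ : W'.a₃ = 0) (ha₄ : W'.a₄ = ρ α₄)
    (ha₆ : W'.a₆ = ρ α₆) (hΔ : W'.Δ ≠ 0) :
    ∃ r : G →+ W'.Point, (∀ P, r P = 0 ↔ (P = 0 ∨ M.X P ∉ A)) ∧
      ∀ P (_ : P ≠ 0) (hx : M.X P ∈ A), ∃ (hy : M.Y P ∈ A)
        (hns : W'.Nonsingular (ρ ⟨M.X P, hx⟩) (ρ ⟨M.Y P, hy⟩)),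
        r P = Point.some (ρ ⟨M.X P, hx⟩) (ρ ⟨M.Y P, hy⟩) hns := by
  refine ⟨AddMonoidHom.mk' (RedHom_fun A ρ α₄ α₆ M W' ha₁ ha₂ ha₃ ha₄ ha₆ hΔ)
    (RedHom_fun_add A ρ α₄ α₆ M W' ha₁ ha₂ ha₃ ha₄ ha₆ hΔ hρ h2), ?_, ?_⟩
  · intro P
    rw [AddMonoidHom.mk'_apply]
    constructor
    · intro h
      by_contra hc
      rw [not_or, not_not] at hc
      rw [RedHom_fun_of_mem A ρ α₄ α₆ M W' ha₁ ha₂ ha₃ ha₄ ha₆ hΔ hc.1 hc.2] at h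
      exact Point.some_ne_zero _ h
    · rintro (rfl | h)
      · exact RedHom_fun_zero A ρ α₄ α₆ M W' ha₁ ha₂ ha₃ ha₄ ha₆ hΔ
      · exact RedHom_fun_of_not_mem A ρ α₄ α₆ M W' ha₁ ha₂ ha₃ ha₄ ha₆ hΔ h
  · intro P hP hx
    exact ⟨RedHom_Y_mem A α₄ α₆ M hP hx, _,
      RedHom_fun_of_mem A ρ α₄ α₆ M W' ha₁ ha₂ ha₃ ha₄ ha₆ hΔ hP hx⟩

end red

end Fermat.Agent.S41.G
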