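import Mathlib
import Fermat.Statements.S41
import Fermat.Agent.S05.KerRed
import Fermat.Agent.S52.CH.Export
import Fermat.Agent.S52.Bridge
import Fermat.Agent.GAL.Cheb.Transfer
import Fermat.Agent.S41.G.Model
import Fermat.Agent.S41.G.RedHom

/-!
# S41, block G-D : Cayley-Hamilton for Frobenius on `E[p](ℚ̄)`
-/

set_option autoImplicit false
set_option linter.style.haveILetI false

open WeierstrassCurve WeierstrassCurve.Affine WeierstrassCurve.Affine.Point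
open Fermat.Agent.S05 Fermat.Agent.S52

namespace Fermat.Agent.S41.G

local notation "Qb" => AlgebraicClosure ℚ
local notation "GQ" => (AlgebraicClosure ℚ ≃ₐ[ℚ] AlgebraicClosure ℚ)

theorem FrobCH_sw_Δ {R : Type*} [CommRing R] (a b : R) :
    (sw a b).Δ = -16 * (4 * a ^ 3 + 27 * b ^ 2) := by
  simp only [sw, Δ, b₂, b₄, b₆, b₈]
  ring

theorem FrobCH_two_ne_zero (ℓ : ℕ) [Fact ℓ.Prime] (hℓ5 : 5 ≤ ℓ) : (2 : ZMod ℓ) ≠ 0 :=
  CH.two_ne_zero_of_five_le ℓ hℓ5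

/-- the abstract core. -/
theorem FrobCH_core {K : Type*} [Field K] (A : ValuationSubring K) (ℓ : ℕ) [Fact ℓ.Prime]
    (hℓ5 : 5 ≤ ℓ) {Ω : Type*} [Field Ω] [DecidableEq Ω] [Algebra (ZMod ℓ) Ω]
    (hΩ : ∃ x : Ω, Transcendental (ZMod ℓ) x) (ρ : A →+* Ω)
    (hρ : ∀ a : A, ρ a = 0 ↔ (a : K) ∈ A.nonunits) {G : Type*} [AddCommGroup G] (n₄ n₆ : ℤ)
    (M : Model G (0 : K) (n₄ : K) (n₆ : K))
    (hΔ : 4 * (n₄ : ZMod ℓ) ^ 3 + 27 * (n₆ : ZMod ℓ) ^ 2 ≠ 0)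
    (s : G →+ G) (τ : K → K) (hτA : ∀ x, τ x ∈ A ↔ x ∈ A)
    (hτρ : ∀ x (hx : x ∈ A) (hx' : τ x ∈ A), ρ ⟨τ x, hx'⟩ = ρ ⟨x, hx⟩ ^ ℓ)
    (hs0 : ∀ P, P ≠ 0 → s P ≠ 0) (hsX : ∀ P, P ≠ 0 → M.X (s P) = τ (M.X P))
    (hsY : ∀ P, P ≠ 0 → M.Y (s P) = τ (M.Y P))
    {p : ℕ} (hpodd : Odd p) (hpv : A.valuation (p : K) = 1) (P : G) (hP : (p : ℤ) • P = 0) :
    s (s P) - (sw (n₄ : ZMod ℓ) (n₆ : ZMod ℓ)).traceOfFrobenius • s P + (ℓ : ℤ) • P = 0 := by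
  have h2Ω : (2 : Ω) ≠ 0 := by
    have := (map_ne_zero (algebraMap (ZMod ℓ) Ω)).2 (FrobCH_two_ne_zero ℓ hℓ5)
    rwa [map_ofNat] at this
  set α₄ : A := ⟨(n₄ : K), intCast_mem A n₄⟩ with hα₄
  set α₆ : A := ⟨(n₆ : K), intCast_mem A n₆⟩ with hα₆
  have hα₄' : α₄ = (n₄ : A) := Subtype.ext (by simp [hα₄])
  have hα₆' : α₆ = (n₆ : A) := Subtype.ext (by simp [hα₆])
  set C : WeierstrassCurve (ZMod ℓ) := sw (n₄ : ZMod ℓ) (n₆ : ZMod ℓ) with hC
  have hCΔ : C.Δ ≠ 0 := by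
    rw [hC, FrobCH_sw_Δ]
    refine mul_ne_zero ?_ hΔ
    have : (-16 : ZMod ℓ) = - (2 ^ 4) := by norm_num
    rw [this]
    exact neg_ne_zero.2 (pow_ne_zero _ (FrobCH_two_ne_zero ℓ hℓ5))
  obtain ⟨r, hr0, hr1⟩ := exists_red A ρ hρ h2Ω α₄ α₆ M (C⁄Ω)
    (by simp [hC, sw]) (by simp [hC, sw]) (by simp [hC, sw])
    (by rw [hα₄']; simp [hC, sw]) (by rw [hα₆']; simp [hC, sw])
    (by
      change (C.map (algebraMap (ZMod ℓ) Ω)).Δ ≠ 0
      rw [WeierstrassCurve.map_Δ]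
      exact (map_ne_zero _).2 hCΔ)
  -- compatibility with Frobenius
  have hfr : ∀ Q : G, r (s Q) = frobPt ℓ C (r Q) := by
    intro Q
    by_cases hQ : Q = 0
    · subst hQ
      simp
    by_cases hx : M.X Q ∈ A
    · have hx' : M.X (s Q) ∈ A := by rw [hsX Q hQ]; exact (hτA _).2 hx
      obtain ⟨hy, hns, e⟩ := hr1 Q hQ hx
      obtain ⟨hy', hns', e'⟩ := hr1 (s Q) (hs0 Q hQ) hx'
      obtain ⟨h'', e''⟩ := frobPt_some ℓ C hns
      rw [e, e', e'', Point.some.injEq]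
      constructor
      · have := hτρ (M.X Q) hx ((hτA _).2 hx)
        rw [← this]
        congr 2
        exact hsX Q hQ
      · have := hτρ (M.Y Q) hy ((hτA _).2 hy)
        rw [← this]
        congr 2
        exact hsY Q hQ
    · have h1 : r Q = 0 := (hr0 Q).2 (Or.inr hx)
      have h2 : r (s Q) = 0 := by
        refine (hr0 _).2 (Or.inr ?_)
        rw [hsX Q hQ, hτA]
        exact hx
      rw [h1, h2, _root_.map_zero]
  set a : ℤ := C.traceOfFrobenius with ha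
  set Q : G := s (s P) - a • s P + (ℓ : ℤ) • P with hQ
  have hrQ : r ((2 : ℤ) • Q) = 0 := by
    rw [map_zsmul, hQ, map_add, map_sub, map_zsmul, map_zsmul, hfr, hfr]
    exact frob_cayley_hamilton ℓ hℓ5 _ _ hΔ hΩ (r P)
  have hpQ : (p : ℤ) • Q = 0 := by
    rw [hQ, smul_add, smul_sub, smul_comm (p : ℤ) a, smul_comm (p : ℤ) (ℓ : ℤ), ← map_zsmul,
      ← map_zsmul, hP]
    simp
  have h2Q : (2 : ℤ) • Q = 0 := by
    rcases (hr0 _).1 hrQ with h | h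
    · exact h
    · refine M.no_torsion_E1 A.valuation (by simp) ?_ ?_ hpv (P := (2 : ℤ) • Q) ?_ ?_
      · exact (A.valuation_le_one_iff _).2 (intCast_mem A n₄)
      · exact (A.valuation_le_one_iff _).2 (intCast_mem A n₆)
      · rw [← natCast_zsmul, smul_comm, hpQ, smul_zero]
      · rw [← not_le, A.valuation_le_one_iff]
        exact h
  obtain ⟨k, hk⟩ := hpodd
  have : Q = (p : ℤ) • Q - (k : ℤ) • ((2 : ℤ) • Q) := by
    rw [smul_smul, ← sub_smul, hk]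
    push_cast
    rw [show (2 * (k : ℤ) + 1 - k * 2) = 1 by ring, one_smul]
  rw [this, hpQ, h2Q, smul_zero, sub_zero]

open scoped Pointwise in
theorem FrobCH_apply_mem {A : ValuationSubring Qb} {σ : GQ}
    (hσ : σ ∈ A.decompositionSubgroup ℚ) (x : Qb) : σ x ∈ A ↔ x ∈ A := by
  have h1 : σ • A = A := hσ
  have h2 : ∀ y : Qb, y ∈ A → σ y ∈ A := by
    intro y hy
    have := ValuationSubring.smul_mem_pointwise_smul σ y A hy
    rw [h1] at this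
    exact this
  have h3 : σ⁻¹ • A = A := inv_smul_eq_iff.2 h1.symm
  refine ⟨fun h => ?_, h2 x⟩
  have := ValuationSubring.smul_mem_pointwise_smul σ⁻¹ (σ x) A h
  rw [h3] at this
  simpa using this

theorem frob_ch_torsion (E : WeierstrassCurve ℚ) [E.IsElliptic] {W : WeierstrassCurve ℤ}
    (hW : W.IsIntegralModelOf E) {p ℓ : ℕ} (hp : p.Prime) (hp2 : p ≠ 2) (hℓ : ℓ.Prime)
    (hℓ5 : 5 ≤ ℓ) (hℓp : ℓ ≠ p) (hgood : W.IsGoodPrimeFor ℓ)
    (A : ValuationSubring Qb) (hA : A.LiesOverPrime ℓ) (σ : GQ) (hσ : A.IsFrobeniusAt σ ℓ)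
    (P : (E⁄Qb).Point) (hP : (p : ℤ) • P = 0) :
    σ • σ • P - W.apOfModel ℓ • σ • P + (ℓ : ℤ) • P = 0 := by
  classical
  haveI : Fact ℓ.Prime := ⟨hℓ⟩
  obtain ⟨M, hMX, hMY⟩ := exists_model E hW
  -- the residue field and the big field
  let k := IsLocalRing.ResidueField A
  let Ω := RatFunc k
  have hℓA : ((ℓ : A) : Qb) ∈ A.nonunits := by
    have : ((ℓ : A) : Qb) = (ℓ : Qb) := by simp
    rw [this]
    exact hA
  have hℓk : (ℓ : k) = 0 := by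
    have h1 : (ℓ : A) ∈ IsLocalRing.maximalIdeal A := by
      obtain ⟨ha, hm⟩ := (ValuationSubring.mem_nonunits_iff_exists_mem_maximalIdeal (A := A)).1 hℓA
      exact hm
    have h2 := (IsLocalRing.residue_eq_zero_iff (ℓ : A)).2 h1
    rwa [map_natCast] at h2
  haveI : CharP k ℓ := (CharP.charP_iff_prime_eq_zero hℓ).2 hℓk
  letI : Algebra (ZMod ℓ) k := ZMod.algebra k ℓ
  letI : Algebra (ZMod ℓ) Ω := inferInstance
  haveI : IsScalarTower (ZMod ℓ) k Ω := inferInstance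
  have hΩ : ∃ x : Ω, Transcendental (ZMod ℓ) x :=
    ⟨RatFunc.X, (RatFunc.transcendental_X (K := k)).restrictScalars (R := ZMod ℓ)
      (algebraMap (ZMod ℓ) k).injective⟩
  let ρ : A →+* Ω := (algebraMap k Ω).comp (IsLocalRing.residue A)
  have hρ : ∀ a : A, ρ a = 0 ↔ (a : Qb) ∈ A.nonunits := by
    intro a
    change algebraMap k Ω (IsLocalRing.residue A a) = 0 ↔ _
    rw [map_eq_zero, IsLocalRing.residue_eq_zero_iff,
      ValuationSubring.mem_nonunits_iff_exists_mem_maximalIdeal]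
    exact ⟨fun h => ⟨a.2, h⟩, fun ⟨_, h⟩ => h⟩
  have hσA := FrobCH_apply_mem hσ.mem_decompositionSubgroup
  have hτρ : ∀ x (hx : x ∈ A) (hx' : σ x ∈ A), ρ ⟨σ x, hx'⟩ = ρ ⟨x, hx⟩ ^ ℓ := by
    intro x hx hx'
    rw [← map_pow, ← sub_eq_zero, ← map_sub, hρ]
    exact Fermat.Agent.GAL.Cheb.sub_pow_mem_nonunits hσ x hx
  -- the reduction of `W`
  have hWΔ : (W.reductionMod ℓ).Δ ≠ 0 := by
    rw [WeierstrassCurve.reductionMod, WeierstrassCurve.map_Δ]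
    intro h
    exact hgood ((ZMod.intCast_zmod_eq_zero_iff_dvd _ _).1 h)
  have hsw : sw (((-27 * W.c₄ : ℤ)) : ZMod ℓ) (((-54 * W.c₆ : ℤ)) : ZMod ℓ)
      = shortW (W.reductionMod ℓ).c₄ (W.reductionMod ℓ).c₆ := by
    rw [WeierstrassCurve.reductionMod, WeierstrassCurve.map_c₄, WeierstrassCurve.map_c₆, shortW]
    simp
  have h2 : (2 : ZMod ℓ) ≠ 0 := FrobCH_two_ne_zero ℓ hℓ5
  have h3 : (3 : ZMod ℓ) ≠ 0 := by
    intro h
    have h' : ((3 : ℕ) : ZMod ℓ) = 0 := by exact_mod_cast h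
    rw [ZMod.natCast_eq_zero_iff] at h'
    have := Nat.le_of_dvd (by norm_num) h'
    omega
  have hΔ : 4 * (((-27 * W.c₄ : ℤ)) : ZMod ℓ) ^ 3 + 27 * (((-54 * W.c₆ : ℤ)) : ZMod ℓ) ^ 2 ≠ 0 := by
    intro h
    have h1 := br_Δ_ne_zero h2 h3 (W.reductionMod ℓ) hWΔ
    rw [← hsw, FrobCH_sw_Δ, h, mul_zero] at h1
    exact h1 rfl
  have htr : W.apOfModel ℓ
      = (sw (((-27 * W.c₄ : ℤ)) : ZMod ℓ) (((-54 * W.c₆ : ℤ)) : ZMod ℓ)).traceOfFrobenius := by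
    rw [hsw, WeierstrassCurve.apOfModel]
    exact trace_short ℓ hℓ5 _ hWΔ
  have hpv : A.valuation ((p : ℕ) : Qb) = 1 := by
    have hle : A.valuation ((p : ℕ) : Qb) ≤ 1 := (A.valuation_le_one_iff _).2 (natCast_mem A p)
    refine le_antisymm hle (not_lt.1 fun hlt => ?_)
    have hℓv : A.valuation ((ℓ : ℕ) : Qb) < 1 := (ValuationSubring.mem_nonunits_iff A).1 hA
    have hcop : IsCoprime (p : ℤ) (ℓ : ℤ) :=
      Nat.isCoprime_iff_coprime.2 ((Nat.coprime_primes hp hℓ).2 hℓp.symm)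
    obtain ⟨u, w, huw⟩ := hcop
    have h1 : (1 : Qb) = (u : Qb) * (p : Qb) + (w : Qb) * (ℓ : Qb) := by exact_mod_cast huw.symm
    have hu : A.valuation (u : Qb) ≤ 1 := (A.valuation_le_one_iff _).2 (intCast_mem A u)
    have hw : A.valuation (w : Qb) ≤ 1 := (A.valuation_le_one_iff _).2 (intCast_mem A w)
    have h2 : A.valuation (1 : Qb) < 1 := by
      rw [h1]
      refine lt_of_le_of_lt (A.valuation.map_add _ _) (max_lt ?_ ?_)
      · rw [map_mul]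
        exact (mul_le_of_le_one_left' hu).trans_lt hlt
      · rw [map_mul]
        exact (mul_le_of_le_one_left' hw).trans_lt hℓv
    rw [map_one] at h2
    exact lt_irrefl _ h2
  have hmain := FrobCH_core A ℓ hℓ5 hΩ ρ hρ (-27 * W.c₄) (-54 * W.c₆) M hΔ
    (DistribSMul.toAddMonoidHom _ σ) σ hσA hτρ
    (fun Q hQ h => hQ ((smul_eq_zero_iff_eq σ).1 h)) (fun Q hQ => hMX σ Q hQ)
    (fun Q hQ => hMY σ Q hQ) (hp.odd_of_ne_two hp2) hpv P hP
  rw [htr]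
  exact hmain

end Fermat.Agent.S41.G
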